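import Fermat.Agent.DelaValleePoussin.Error
import Fermat.Agent.MertensThird.Constant
import Mathlib.NumberTheory.AbelSummation

/-!
# The logarithm of Nicolas's quotient

`nic x = γ + log log θ x + ∑_{p ≤ x} log (1 - 1/p)` is
`J x - (ψ x - θ x) / (x log x) - defect x - rem x`, with
`J x = ∫_x^∞ (ψ t - t) (log t + 1) / (t log t) ²`, `0 ≤ defect x` and `0 ≤ rem x ≤ 6 / √x`.
-/

set_option autoImplicit false

noncomputable section

open MeasureTheory Filter Finset Real
open FA.ErdosKac (primesUpTo mem_primesUpTo)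
open scoped Topology Chebyshev ArithmeticFunction.vonMangoldt

namespace FA.Nicolas

/-- `1 / (t log t)`. -/
def phi (t : ℝ) : ℝ := 1 / (t * log t)

/-- `(log t + 1) / (t log t) ²`, the derivative of `-phi`. -/
def wgt (t : ℝ) : ℝ := (log t + 1) / (t ^ 2 * log t ^ 2)

/-- `∫_x^∞ (ψ t - t) wgt t`. -/
def tailInt (x : ℝ) : ℝ := ∫ t in Set.Ioi x, (ψ t - t) * wgt t

/-- `-∑_{p ≤ x} log (1 - 1/p)`. -/
def primeSum (x : ℝ) : ℝ := ∑ p ∈ primesUpTo ⌊x⌋₊, -log (1 - (p : ℝ)⁻¹)

/-- `∑_{n ≤ x} Λ n / (n log n)`. -/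
def powSum (x : ℝ) : ℝ := ∑ n ∈ Icc 0 ⌊x⌋₊, phi n * Λ n

/-- `γ + log log θ x + ∑_{p ≤ x} log (1 - 1/p)`. -/
def nic (x : ℝ) : ℝ := eulerMascheroniConstant + log (log (θ x)) - primeSum x

/-- `(θ x - x) / (x log x) - (log log θ x - log log x)`. -/
def defect (x : ℝ) : ℝ := (θ x - x) / (x * log x) - (log (log (θ x)) - log (log x))

theorem log_pos_of_two_le {t : ℝ} (ht : 2 ≤ t) : 0 < log t := log_pos (by linarith)

theorem hasDerivAt_phi {t : ℝ} (ht : 1 < t) : HasDerivAt phi (-wgt t) t := by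
  have hl := log_pos ht
  have ht0 : 0 < t := by linarith
  have h := ((hasDerivAt_id' t).fun_mul (hasDerivAt_log ht0.ne')).inv
    (mul_ne_zero ht0.ne' hl.ne')
  unfold phi
  simp only [one_div]
  refine h.congr_deriv ?_
  rw [wgt]
  field_simp

theorem wgt_nonneg {t : ℝ} (ht : 1 < t) : 0 ≤ wgt t := by
  have := log_pos ht
  rw [wgt]
  positivity

theorem continuousOn_wgt : ContinuousOn wgt (Set.Ioi 1) := by
  unfold wgt
  refine ContinuousOn.div ?_ ?_ fun t ht => ?_
  · exact (continuousOn_log.mono fun t ht => (zero_lt_one.trans (Set.mem_Ioi.1 ht)).ne').add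
      continuousOn_const
  · exact (continuousOn_id.pow 2).mul
      ((continuousOn_log.mono fun t ht => (zero_lt_one.trans (Set.mem_Ioi.1 ht)).ne').pow 2)
  · have h1 : (1 : ℝ) < t := ht
    have := log_pos h1
    positivity

theorem measurable_psi : Measurable ψ := Chebyshev.psi_mono.measurable

theorem measurable_wgt : Measurable wgt := by
  unfold wgt
  fun_prop

/-- `|ψ t - t| = O (t / log t)`. -/
theorem exists_abs_err_le : ∃ C, 0 ≤ C ∧ ∀ t : ℝ, 2 ≤ t → |ψ t - t| ≤ C * (t / log t) := by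
  obtain ⟨c, C, hc, hC, h⟩ := FA.DLVP.exists_psi_error_classical
  refine ⟨2 * C / c ^ 2, by positivity, fun t ht => (h t ht).trans ?_⟩
  have hl := log_pos_of_two_le ht
  have hy : 0 < c * √(log t) := by positivity
  have he : exp (-(c * √(log t))) ≤ 2 / (c ^ 2 * log t) := by
    rw [exp_neg, ← one_div, div_le_div_iff₀ (exp_pos _) (by positivity), one_mul]
    have := Real.quadratic_le_exp_of_nonneg hy.le
    rw [mul_pow, sq_sqrt hl.le] at this
    linarith
  calc C * t * exp (-(c * FA.DLVP.root t)) ≤ C * t * (2 / (c ^ 2 * log t)) := by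
        rw [FA.DLVP.root]; gcongr
    _ = 2 * C / c ^ 2 * (t / log t) := by field_simp

theorem integrableOn_inv_log_sq {x : ℝ} (hx : 1 < x) :
    IntegrableOn (fun t => 1 / (t * log t ^ 2)) (Set.Ioi x) ∧
      ∫ t in Set.Ioi x, 1 / (t * log t ^ 2) = 1 / log x := by
  have hd : ∀ t ∈ Set.Ici x, HasDerivAt (fun t => -(log t)⁻¹) (1 / (t * log t ^ 2)) t := by
    intro t ht
    have ht1 : 1 < t := hx.trans_le ht
    refine ((hasDerivAt_log (by linarith)).inv (log_pos ht1).ne').neg.congr_deriv ?_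
    field_simp
  have hlim : Tendsto (fun t => -(log t)⁻¹) atTop (𝓝 0) := by
    simpa using (tendsto_log_atTop.inv_tendsto_atTop).neg
  have hint := integrableOn_Ioi_deriv_of_nonneg' hd (fun t ht => by
    have := log_pos (hx.trans ht)
    have : 0 < t := by linarith [hx.trans (Set.mem_Ioi.1 ht)]
    positivity) hlim
  refine ⟨hint, ?_⟩
  rw [integral_Ioi_of_hasDerivAt_of_tendsto' hd hint hlim]
  ring

theorem exists_abs_tail_integrand_le : ∃ C, 0 ≤ C ∧ ∀ t : ℝ, 2 ≤ t →
    |(ψ t - t) * wgt t| ≤ C * (1 / (t * log t ^ 2)) := by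
  obtain ⟨C, hC, h⟩ := exists_abs_err_le
  refine ⟨3 * C, by positivity, fun t ht => ?_⟩
  have hl := log_pos_of_two_le ht
  have hlow : 1 / 2 ≤ log t := by
    have := log_le_log two_pos ht
    have := log_two_gt_d9
    linarith
  rw [abs_mul, abs_of_nonneg (wgt_nonneg (by linarith))]
  have hw : wgt t ≤ 3 / (t ^ 2 * log t) := by
    rw [wgt, div_le_div_iff₀ (by positivity) (by positivity)]
    calc (log t + 1) * (t ^ 2 * log t) ≤ (3 * log t) * (t ^ 2 * log t) := by
          gcongr; linarith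
      _ = _ := by ring
  calc |ψ t - t| * wgt t ≤ C * (t / log t) * (3 / (t ^ 2 * log t)) :=
        mul_le_mul (h t ht) hw (wgt_nonneg (by linarith)) (by positivity)
    _ = _ := by field_simp

theorem integrableOn_tail {x : ℝ} (hx : 2 ≤ x) :
    IntegrableOn (fun t => (ψ t - t) * wgt t) (Set.Ioi x) := by
  obtain ⟨C, -, h⟩ := exists_abs_tail_integrand_le
  refine Integrable.mono' ((integrableOn_inv_log_sq (by linarith : 1 < x)).1.const_mul C)
    ((measurable_psi.sub measurable_id).mul measurable_wgt).aestronglyMeasurable ?_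
  exact (ae_restrict_mem measurableSet_Ioi).mono fun t ht => h t (hx.trans ht.out.le)

theorem exists_abs_tailInt_le : ∃ C, 0 ≤ C ∧ ∀ x : ℝ, 2 ≤ x → |tailInt x| ≤ C / log x := by
  obtain ⟨C, hC, h⟩ := exists_abs_tail_integrand_le
  refine ⟨C, hC, fun x hx => ?_⟩
  obtain ⟨hint, hval⟩ := integrableOn_inv_log_sq (show 1 < x by linarith)
  have := norm_integral_le_of_norm_le (hint.const_mul C)
    ((ae_restrict_mem measurableSet_Ioi).mono fun t ht =>
      (show ‖(ψ t - t) * wgt t‖ ≤ _ from h t (hx.trans ht.out.le)))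
  rw [integral_const_mul, hval, mul_one_div] at this
  exact this

theorem tendsto_tailInt : Tendsto tailInt atTop (𝓝 0) := by
  obtain ⟨C, -, h⟩ := exists_abs_tailInt_le
  exact squeeze_zero_norm' ((eventually_ge_atTop 2).mono fun x hx => h x hx)
    (tendsto_log_atTop.const_div_atTop C)

theorem tailInt_sub {a b : ℝ} (ha : 2 ≤ a) (hab : a ≤ b) :
    tailInt a - tailInt b = ∫ t in a..b, (ψ t - t) * wgt t :=
  intervalIntegral.integral_Ioi_sub_Ioi (integrableOn_tail ha) hab

theorem intervalIntegrable_tail {a b : ℝ} (ha : 2 ≤ a) (hab : a ≤ b) :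
    IntervalIntegrable (fun t => (ψ t - t) * wgt t) volume a b :=
  (intervalIntegrable_iff_integrableOn_Ioc_of_le hab).2
    ((integrableOn_tail ha).mono_set Set.Ioc_subset_Ioi_self)

theorem continuousOn_tailInt : ContinuousOn tailInt (Set.Ici 2) := by
  intro x hx
  have hx2 : 2 ≤ x := hx
  have h : ContinuousOn (fun y => tailInt 2 - ∫ t in (2 : ℝ)..y, (ψ t - t) * wgt t)
      (Set.Icc 2 (x + 1)) := by
    have hint : IntegrableOn (fun t => (ψ t - t) * wgt t) (Set.uIcc 2 (x + 1)) := by
      rw [Set.uIcc_of_le (by linarith), integrableOn_Icc_iff_integrableOn_Ioc]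
      exact (integrableOn_tail le_rfl).mono_set Set.Ioc_subset_Ioi_self
    have h' := intervalIntegral.continuousOn_primitive_interval hint
    rw [Set.uIcc_of_le (by linarith)] at h'
    exact continuousOn_const.sub h'
  refine ((h x ⟨hx2, by linarith⟩).congr (fun y hy => ?_) ?_).mono_of_mem_nhdsWithin ?_
  · rw [← tailInt_sub le_rfl hy.1]; ring
  · rw [← tailInt_sub le_rfl hx2]; ring
  · exact mem_nhdsWithin.2 ⟨Set.Iio (x + 1), isOpen_Iio, by simp,
      fun y hy => ⟨hy.2, le_of_lt hy.1⟩⟩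

/-! ### The prime powers -/

theorem hasSum_neg_log {p : ℕ} (hp : p.Prime) :
    HasSum (fun i : ℕ => ((p : ℝ)⁻¹) ^ (i + 1) / (i + 1)) (-log (1 - (p : ℝ)⁻¹)) := by
  refine hasSum_pow_div_log_of_abs_lt_one ?_
  rw [abs_of_nonneg (by positivity)]
  exact inv_lt_one_of_one_lt₀ (Nat.one_lt_cast.2 hp.one_lt)

theorem powSum_eq (x : ℝ) :
    powSum x = ∑ p ∈ primesUpTo ⌊x⌋₊,
      ∑ i ∈ range (Nat.log p ⌊x⌋₊), ((p : ℝ)⁻¹) ^ (i + 1) / (i + 1) := by
  set N := ⌊x⌋₊ with hN
  calc powSum x
      = ∑ m ∈ (primesUpTo N).biUnion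
          (fun p => (range (p.log N)).image fun i => p ^ (i + 1)), phi m * Λ m := by
        refine (sum_subset (fun q hq => ?_) fun m hm hm' => ?_).symm
        · simp only [mem_biUnion, mem_image, mem_range, mem_primesUpTo] at hq
          obtain ⟨p, ⟨hp, hpN⟩, i, hi, rfl⟩ := hq
          exact mem_Icc.2 ⟨Nat.zero_le _,
            Nat.pow_le_of_le_log (by linarith [hp.two_le]) (Nat.succ_le_of_lt hi)⟩
        · rw [mul_eq_zero, ArithmeticFunction.vonMangoldt_eq_zero_iff]
          refine Or.inr fun hpp => hm' ?_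
          obtain ⟨p, k, hp, hk, rfl⟩ := (isPrimePow_nat_iff _).1 hpp
          have hkN : p ^ k ≤ N := (mem_Icc.1 hm).2
          have hpN : p ≤ N := (Nat.le_self_pow hk.ne' p).trans hkN
          simp only [mem_biUnion, mem_image, mem_range, mem_primesUpTo]
          refine ⟨p, ⟨hp, hpN⟩, k - 1, ?_, by rw [Nat.sub_add_cancel hk]⟩
          have := Nat.le_log_of_pow_le hp.one_lt hkN
          omega
    _ = ∑ p ∈ primesUpTo N, ∑ m ∈ (range (p.log N)).image (fun i => p ^ (i + 1)), phi m * Λ m := by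
        refine sum_biUnion ?_
        intro p hp q hq hpq
        refine disjoint_left.2 fun m h1 h2 => hpq ?_
        simp only [mem_image] at h1 h2
        obtain ⟨i, -, rfl⟩ := h1
        obtain ⟨j, -, hj⟩ := h2
        exact ((Nat.Prime.pow_inj' (mem_primesUpTo.1 hp).1 (mem_primesUpTo.1 hq).1
          (by omega) (by omega) hj.symm).1)
    _ = _ := by
        refine sum_congr rfl fun p hp => ?_
        have hp' := (mem_primesUpTo.1 hp).1
        rw [sum_image fun a _ b _ hab => by
          have := Nat.pow_right_injective hp'.two_le hab; omega]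
        refine sum_congr rfl fun i _ => ?_
        rw [phi, ArithmeticFunction.vonMangoldt_apply_pow (by omega),
          ArithmeticFunction.vonMangoldt_apply_prime hp', Nat.cast_pow, log_pow, inv_pow]
        have hl : log (p : ℝ) ≠ 0 := (log_pos (Nat.one_lt_cast.2 hp'.one_lt)).ne'
        have hp0 : (p : ℝ) ≠ 0 := Nat.cast_ne_zero.2 hp'.ne_zero
        push_cast
        field_simp

theorem powSum_le_primeSum (x : ℝ) : powSum x ≤ primeSum x := by
  rw [powSum_eq]
  refine sum_le_sum fun p hp => ?_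
  exact sum_le_hasSum _ (fun i _ => by positivity) (hasSum_neg_log (mem_primesUpTo.1 hp).1)

theorem primeSum_sub_powSum_le {x : ℝ} (hx : 4 ≤ x) : primeSum x - powSum x ≤ 6 / √x := by
  have hx0 : 0 < x := by linarith
  set N := ⌊x⌋₊ with hN
  set m := ⌊√x⌋₊ with hm
  have hs2 : 2 ≤ √x := by
    rw [Real.le_sqrt two_pos.le hx0.le]; linarith
  have hm0 : m ≠ 0 := (Nat.floor_pos.2 (by linarith)).ne'
  have hmN : m ≤ N := Nat.floor_mono (Real.sqrt_le_iff.2 ⟨hx0.le, by nlinarith⟩)
  have hterm : ∀ p ∈ primesUpTo N,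
      -log (1 - (p : ℝ)⁻¹) - ∑ i ∈ range (Nat.log p N), ((p : ℝ)⁻¹) ^ (i + 1) / (i + 1) ≤
        2 * (p : ℝ)⁻¹ ^ (Nat.log p N + 1) := by
    intro p hp
    have hp' := (mem_primesUpTo.1 hp).1
    set t := (p : ℝ)⁻¹
    have ht0 : 0 ≤ t := by positivity
    have ht2 : t ≤ 1 / 2 := by
      rw [one_div]; exact inv_anti₀ two_pos (by exact_mod_cast hp'.two_le)
    have h := abs_le.1 (abs_log_sub_add_sum_range_le (x := t) (by rw [abs_of_nonneg ht0]; linarith)
      (Nat.log p N))
    rw [abs_of_nonneg ht0] at h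
    have h2 : t ^ (Nat.log p N + 1) / (1 - t) ≤ 2 * t ^ (Nat.log p N + 1) := by
      rw [div_le_iff₀ (by linarith)]
      nlinarith [pow_nonneg ht0 (Nat.log p N + 1)]
    linarith [h.1]
  rw [primeSum, powSum_eq, ← sum_sub_distrib, ← hN]
  refine (sum_le_sum hterm).trans ?_
  rw [primesUpTo, Finset.sum_filter]
  refine (sum_le_sum (g := fun n : ℕ => if n ≤ m then 2 / x else 2 * ((n : ℝ) ^ 2)⁻¹)
    fun n hn => ?_).trans ?_
  · split_ifs with hp h1 h2
    · have hlt : x < (n : ℝ) ^ (Nat.log n N + 1) := by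
        have := Nat.lt_pow_succ_log_self hp.one_lt N
        refine (Nat.lt_floor_add_one x).trans_le ?_
        rw [← hN]
        exact_mod_cast this
      rw [inv_pow, div_eq_mul_inv]
      exact mul_le_mul_of_nonneg_left (inv_anti₀ hx0 hlt.le) two_pos.le
    · rw [inv_pow]
      refine mul_le_mul_of_nonneg_left (inv_anti₀ ?_ ?_) two_pos.le
      · exact pow_pos (Nat.cast_pos.2 hp.pos) 2
      · refine pow_le_pow_right₀ (Nat.one_le_cast.2 hp.one_le) ?_
        have := Nat.log_pos hp.one_lt (mem_Icc.1 hn).2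
        omega
    all_goals positivity
  · have hsplit : Icc 1 N = Icc 1 m ∪ Ioc m N := by
      ext k; simp only [mem_union, mem_Icc, mem_Ioc]; omega
    rw [hsplit, sum_union (disjoint_left.2 fun k h1 h2 => by
      simp only [mem_Icc, mem_Ioc] at h1 h2; omega)]
    have h1 : ∑ k ∈ Icc 1 m, (if k ≤ m then 2 / x else 2 * ((k : ℝ) ^ 2)⁻¹) ≤ 2 / √x := by
      rw [sum_congr rfl fun k hk => if_pos (mem_Icc.1 hk).2, sum_const, Nat.card_Icc, nsmul_eq_mul,
        Nat.add_sub_cancel]
      calc (m : ℝ) * (2 / x) ≤ √x * (2 / x) :=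
            mul_le_mul_of_nonneg_right (Nat.floor_le (sqrt_nonneg x)) (by positivity)
        _ = 2 / √x := by
            have := sqrt_pos.2 hx0
            field_simp
            rw [sq_sqrt hx0.le]
    have h2 : ∑ k ∈ Ioc m N, (if k ≤ m then 2 / x else 2 * ((k : ℝ) ^ 2)⁻¹) ≤ 4 / √x := by
      rw [sum_congr rfl fun k hk => if_neg (not_le.2 (mem_Ioc.1 hk).1), ← mul_sum]
      have h3 := sum_Ioc_inv_sq_le_sub (α := ℝ) hm0 hmN
      have h4 : (m : ℝ)⁻¹ ≤ 2 / √x := by
        rw [← one_div, div_le_div_iff₀ (Nat.cast_pos.2 (Nat.pos_of_ne_zero hm0))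
          (sqrt_pos.2 hx0)]
        linarith [Nat.lt_floor_add_one √x]
      have h5 : (0 : ℝ) ≤ (N : ℝ)⁻¹ := by positivity
      rw [show 4 / √x = 2 * (2 / √x) by ring]
      exact mul_le_mul_of_nonneg_left (by linarith) two_pos.le
    linarith [show (6 : ℝ) / √x = 2 / √x + 4 / √x by ring]

theorem abel {x : ℝ} (hx : 2 ≤ x) :
    powSum x = (ψ x - x) / (x * log x) + log (log x) - log (log 2) + 1 / log 2 +
      (tailInt 2 - tailInt x) := by
  have h0 : Λ 0 = 0 := by simp
  have h1 : Λ 1 = 0 := ArithmeticFunction.vonMangoldt_apply_one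
  have hd : ∀ t ∈ Set.Icc 2 x, HasDerivAt phi (-wgt t) t := fun t ht =>
    hasDerivAt_phi (by linarith [ht.1])
  have hsub : Set.Icc (2 : ℝ) x ⊆ Set.Ioi 1 := fun t ht =>
    Set.mem_Ioi.2 (by linarith [ht.1])
  have h := sum_mul_eq_sub_integral_mul₁ (fun n => Λ n) (f := phi) h0 h1 x
    (fun t ht => (hd t ht).differentiableAt)
    ((continuousOn_wgt.mono hsub).neg.integrableOn_Icc.congr_fun
      (fun t ht => (hd t ht).deriv.symm) measurableSet_Icc)
  simp only [← Chebyshev.psi_eq_sum_Icc] at h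
  rw [powSum, h, ← intervalIntegral.integral_of_le hx]
  have hcong : ∫ t in (2 : ℝ)..x, deriv phi t * ψ t =
      ∫ t in (2 : ℝ)..x, -((ψ t - t) * wgt t + t * wgt t) := by
    refine intervalIntegral.integral_congr fun t ht => ?_
    rw [Set.uIcc_of_le hx] at ht
    simp only [(hd t ht).deriv]
    ring
  have hi2 : IntervalIntegrable (fun t => t * wgt t) volume 2 x := by
    refine ContinuousOn.intervalIntegrable ?_
    rw [Set.uIcc_of_le hx]
    exact continuousOn_id.mul (continuousOn_wgt.mono hsub)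
  have hmain : ∫ t in (2 : ℝ)..x, t * wgt t =
      (log (log x) - 1 / log x) - (log (log 2) - 1 / log 2) := by
    refine intervalIntegral.integral_eq_sub_of_hasDerivAt
      (f := fun t => log (log t) - 1 / log t) (fun t ht => ?_) hi2
    rw [Set.uIcc_of_le hx] at ht
    have ht1 : 1 < t := by linarith [ht.1]
    have hl := log_pos ht1
    simp only [one_div]
    refine (((hasDerivAt_log (by linarith)).log hl.ne').sub
      ((hasDerivAt_log (by linarith)).inv hl.ne')).congr_deriv ?_
    rw [wgt]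
    field_simp
    ring
  rw [hcong, intervalIntegral.integral_neg,
    intervalIntegral.integral_add (intervalIntegrable_tail le_rfl hx) hi2, hmain,
    ← tailInt_sub le_rfl hx, phi]
  have hl := log_pos_of_two_le hx
  have hx0 : x ≠ 0 := by linarith
  field_simp
  ring

theorem tendsto_psi_sub_div : Tendsto (fun x => (ψ x - x) / x) atTop (𝓝 0) := by
  obtain ⟨C, -, h⟩ := exists_abs_err_le
  refine squeeze_zero_norm' ((eventually_ge_atTop 2).mono fun x hx => ?_)
    (tendsto_log_atTop.const_div_atTop C)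
  rw [norm_eq_abs, abs_div, abs_of_pos (show 0 < x by linarith),
    div_le_iff₀ (show 0 < x by linarith)]
  exact (h x hx).trans (le_of_eq (by ring))

/-- **The identity for `∑ Λ n / (n log n)`.** -/
theorem tailInt_eq {x : ℝ} (hx : 2 ≤ x) : tailInt x =
    (ψ x - x) / (x * log x) + log (log x) + eulerMascheroniConstant - powSum x := by
  obtain ⟨c, hc⟩ : ∃ c, c = tailInt 2 - log (log 2) + 1 / log 2 := ⟨_, rfl⟩
  suffices c = eulerMascheroniConstant by
    rw [abel hx, ← this, hc]; ring
  have hS : Tendsto (fun n : ℕ => primeSum n - log (log n)) atTop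
      (𝓝 eulerMascheroniConstant) := by
    refine FA.MertensThird.tendsto_sum_neg_log.congr fun n => ?_
    simp [primeSum]
  have hR : Tendsto (fun n : ℕ => primeSum n - powSum n) atTop (𝓝 0) := by
    refine squeeze_zero' (Eventually.of_forall fun n => sub_nonneg.2 (powSum_le_primeSum _))
      ((eventually_ge_atTop 4).mono fun n hn => primeSum_sub_powSum_le (by exact_mod_cast hn)) ?_
    exact (tendsto_sqrt_atTop.comp tendsto_natCast_atTop_atTop).const_div_atTop 6
  have hE : Tendsto (fun n : ℕ => (ψ n - n) / (n * log n)) atTop (𝓝 0) := by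
    have := (tendsto_psi_sub_div.mul tendsto_log_atTop.inv_tendsto_atTop).comp
      (tendsto_natCast_atTop_atTop (R := ℝ))
    rw [zero_mul] at this
    refine this.congr fun n => ?_
    simp only [Function.comp_apply, Pi.inv_apply]
    rw [div_mul_eq_div_div, div_eq_mul_inv _ (log _)]
  have hlim : Tendsto (fun n : ℕ => (primeSum n - log (log n)) - (primeSum n - powSum n) -
      (ψ n - n) / (n * log n) + tailInt n) atTop (𝓝 eulerMascheroniConstant) := by
    simpa using ((hS.sub hR).sub hE).add (tendsto_tailInt.comp tendsto_natCast_atTop_atTop)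
  refine tendsto_nhds_unique (tendsto_const_nhds.congr' ?_) hlim
  filter_upwards [eventually_ge_atTop 2] with n hn
  rw [abel (show (2 : ℝ) ≤ n by exact_mod_cast hn), hc]
  ring

/-- **The decomposition of `nic`.** -/
theorem nic_eq {x : ℝ} (hx : 2 ≤ x) : nic x =
    tailInt x - (ψ x - θ x) / (x * log x) - defect x - (primeSum x - powSum x) := by
  rw [tailInt_eq hx, nic, defect]
  have hl := log_pos_of_two_le hx
  have hx0 : x ≠ 0 := by linarith
  field_simp
  ring

theorem tendsto_theta_sub_div : Tendsto (fun x => (θ x - x) / x) atTop (𝓝 0) := by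
  obtain ⟨C, hC⟩ := Chebyshev.psi_sub_theta_le_mul_sqrt
  have h0 : Tendsto (fun x => (ψ x - θ x) / x) atTop (𝓝 0) := by
    refine squeeze_zero' ((eventually_ge_atTop 1).mono fun x hx => div_nonneg
      (sub_nonneg.2 (Chebyshev.theta_le_psi x)) (by linarith))
      ((eventually_ge_atTop 1).mono fun x hx => ?_) (tendsto_sqrt_atTop.const_div_atTop C)
    have hx0 : 0 < x := by linarith
    rw [div_le_div_iff₀ hx0 (sqrt_pos.2 hx0)]
    calc (ψ x - θ x) * √x ≤ C * √x * √x := mul_le_mul_of_nonneg_right (hC x) (sqrt_nonneg x)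
      _ = C * x := by rw [mul_assoc, mul_self_sqrt hx0.le]
  simpa [← sub_div] using tendsto_psi_sub_div.sub h0

/-- `0 ≤ defect x ≤ 10 ((θ x - x) / x) ² / log x` when `θ x` is near `x`. -/
theorem eventually_defect_bounds : ∀ᶠ x in atTop,
    0 ≤ defect x ∧ defect x ≤ 10 * ((θ x - x) / x) ^ 2 / log x := by
  have hu := Metric.tendsto_nhds.1 tendsto_theta_sub_div (1 / 4) (by norm_num)
  filter_upwards [hu, eventually_ge_atTop (8 : ℝ)] with x hu hx
  rw [dist_eq_norm, sub_zero, norm_eq_abs] at hu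
  set u := (θ x - x) / x with hud
  have hu' := abs_lt.1 hu
  have hx0 : 0 < x := by linarith
  have hth : θ x = x * (1 + u) := by rw [hud]; field_simp; ring
  have hth0 : 1 < θ x := by nlinarith
  obtain ⟨l, hl⟩ : ∃ l, l = log x := ⟨_, rfl⟩
  obtain ⟨d, hd⟩ : ∃ d, d = log (1 + u) := ⟨_, rfl⟩
  have hlogθ : log (θ x) = l + d := by rw [hth, log_mul hx0.ne' (by linarith), hl, hd]
  have hl2 : 2 ≤ l := by
    have h3 : log 8 ≤ log x := log_le_log (by norm_num) hx
    rw [show (8 : ℝ) = 2 ^ 3 by norm_num, log_pow] at h3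
    have := log_two_gt_d9
    push_cast at h3
    linarith
  have hd1 : d ≤ u := by rw [hd]; linarith [log_le_sub_one_of_pos (show 0 < 1 + u by linarith)]
  have hd2 : u - 2 * u ^ 2 ≤ d := by
    rw [hd]
    refine le_trans ?_ (one_sub_inv_le_log_of_pos (by linarith))
    rw [← one_div, one_sub_div (by linarith : (1 + u) ≠ 0), add_sub_cancel_left,
      le_div_iff₀ (by linarith)]
    nlinarith [mul_nonneg (sq_nonneg u) (show 0 ≤ 1 + 2 * u by linarith)]
  have hld : 0 < l + d := by nlinarith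
  have hexp : log (log (θ x)) - log l = log ((l + d) / l) := by
    rw [hlogθ, log_div hld.ne' (by linarith)]
  have hdef : defect x = u / l - log ((l + d) / l) := by
    rw [defect, ← hl, hexp, hud]
    field_simp
  rw [hdef, ← hl]
  have hup := log_le_sub_one_of_pos (show 0 < (l + d) / l by positivity)
  have hlow := one_sub_inv_le_log_of_pos (show 0 < (l + d) / l by positivity)
  constructor
  · have : (l + d) / l - 1 ≤ u / l := by
      rw [div_sub_one (by linarith), add_sub_cancel_left]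
      exact div_le_div_of_nonneg_right hd1 (by linarith)
    linarith
  · have key : u / l - (1 - ((l + d) / l)⁻¹) ≤ 10 * u ^ 2 / l := by
      rw [inv_div, one_sub_div hld.ne', add_sub_cancel_left,
        div_sub_div _ _ (by linarith) hld.ne', div_le_div_iff₀ (by positivity) (by linarith)]
      have hdu : |d| ≤ 2 * |u| := by
        rw [abs_le]
        constructor <;> nlinarith [abs_nonneg u, le_abs_self u, neg_abs_le u, sq_abs u]
      have h1 : u * d ≤ 2 * u ^ 2 := by
        calc u * d ≤ |u| * |d| := by rw [← abs_mul]; exact le_abs_self _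
          _ ≤ |u| * (2 * |u|) := mul_le_mul_of_nonneg_left hdu (abs_nonneg u)
          _ = 2 * u ^ 2 := by rw [← sq_abs u]; ring
      have h2 : 3 * l / 4 ≤ l + d := by
        have := neg_abs_le d
        linarith
      have h3 : u * (l + d) - l * d ≤ 3 * u ^ 2 * l := by
        nlinarith [mul_le_mul_of_nonneg_left hd2 (show 0 ≤ l by linarith),
          mul_le_mul_of_nonneg_left (show (1 : ℝ) ≤ l / 2 by linarith) (sq_nonneg u)]
      have h4 : 3 * u ^ 2 * l ≤ 10 * u ^ 2 * (l + d) := by
        calc 3 * u ^ 2 * l ≤ 10 * u ^ 2 * (3 * l / 4) := by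
              nlinarith [mul_nonneg (sq_nonneg u) (show 0 ≤ l by linarith)]
          _ ≤ _ := mul_le_mul_of_nonneg_left h2 (by positivity)
      calc (u * (l + d) - l * d) * l ≤ 10 * u ^ 2 * (l + d) * l :=
            mul_le_mul_of_nonneg_right (h3.trans h4) (by linarith)
        _ = _ := by ring
    linarith

/-- `nic ≤ tailInt - (ψ - θ) / (x log x)` for large `x`. -/
theorem eventually_nic_le : ∀ᶠ x in atTop,
    nic x ≤ tailInt x - (ψ x - θ x) / (x * log x) := by
  filter_upwards [eventually_defect_bounds, eventually_ge_atTop (2 : ℝ)] with x hd hx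
  rw [nic_eq hx]
  linarith [powSum_le_primeSum x, hd.1]

end FA.Nicolas
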