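import Fermat.Agent.Nicolas.Transform
import Fermat.Agent.Nicolas.Basic
import Fermat.Agent.PsiOscillation.Coefficients

/-!
# The transform of `tailInt`

With `K s = ∫_A^∞ t (ψ t - t) wgt t t ^ (-s - 1)` one has `s ∫_A^∞ tailInt t t ^ (-s - 1) =
tailInt A A ^ (-s) - K s`, and `K'' s` continues by means of `ζ₁' / ζ₁` at `s + 1`.
-/

set_option autoImplicit false

noncomputable section

open MeasureTheory Set Filter Complex
open scoped Topology Chebyshev

namespace FA.Nicolas

/-- `tailInt`, frozen below `2`. -/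
def jt (t : ℝ) : ℝ := tailInt (max t 2)

/-- `t (ψ t - t) wgt t`. -/
def kt (t : ℝ) : ℝ := t * ((ψ t - t) * wgt t)

/-- The continuation of `∫_A^∞ (ψ t - t) t ^ (-z - 1)`. -/
def phiC (A : ℝ) (z : ℂ) : ℂ :=
  -(deriv riemannZeta₁ z / riemannZeta₁ z) / z +
    dslope (fun w : ℂ => 1 / w - (A : ℂ) ^ (1 - w)) 1 z - trans 1 ((Iic A).indicator ψ) z

/-- The continuation of the second derivative of the transform of `kt`. -/
def secondC (A : ℝ) (s : ℂ) : ℂ := phiC A (s + 1) - deriv (phiC A) (s + 1)

theorem continuous_jt : Continuous jt :=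
  continuousOn_tailInt.comp_continuous (continuous_id.max continuous_const)
    fun t => le_max_right t 2

theorem jt_eq {t : ℝ} (ht : 2 ≤ t) : jt t = tailInt t := by rw [jt, max_eq_left ht]

theorem exists_abs_jt_le : ∃ C, 0 ≤ C ∧ ∀ t, |jt t| ≤ C := by
  obtain ⟨C, hC, h⟩ := exists_abs_tailInt_le
  refine ⟨C / Real.log 2, by positivity, fun t => (h _ (le_max_right t 2)).trans ?_⟩
  exact div_le_div_of_nonneg_left hC (Real.log_pos one_lt_two)
    (Real.log_le_log two_pos (le_max_right t 2))

theorem conv_of_abs_le {A : ℝ} (hA : 1 ≤ A) {g : ℝ → ℝ} (hg : Measurable g) {C a : ℝ}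
    (h : ∀ t ∈ Ioi A, |g t| ≤ C * t ^ a) {u : ℝ} (hu : a < u) : Conv A g u := by
  refine Integrable.mono' ((integrableOn_Ioi_rpow_of_lt (show a - u - 1 < -1 by linarith)
    (show 0 < A by linarith)).const_mul C) (hg.mul
      (measurable_id.pow_const _)).aestronglyMeasurable ?_
  refine (ae_restrict_mem measurableSet_Ioi).mono fun t ht => ?_
  have ht0 : 0 < t := by linarith [mem_Ioi.1 ht]
  rw [norm_mul, Real.norm_eq_abs, Real.norm_of_nonneg (Real.rpow_nonneg ht0.le _),
    show a - u - 1 = a + (-u - 1) by ring, Real.rpow_add ht0, ← mul_assoc]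
  exact mul_le_mul_of_nonneg_right (h t ht) (Real.rpow_nonneg ht0.le _)

variable {A : ℝ}

theorem conv_jt (hA : 2 ≤ A) {u : ℝ} (hu : 0 < u) : Conv A jt u := by
  obtain ⟨C, -, h⟩ := exists_abs_jt_le
  exact conv_of_abs_le (by linarith) continuous_jt.measurable (C := C) (a := 0)
    (fun t _ => by simpa using h t) hu

theorem measurable_kt : Measurable kt :=
  measurable_id.mul ((measurable_psi.sub measurable_id).mul measurable_wgt)

theorem conv_kt (hA : 2 ≤ A) {u : ℝ} (hu : 0 ≤ u) : Conv A kt u := by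
  refine conv_mono (by linarith) measurable_kt (u := 0) ?_ hu
  refine (integrableOn_tail hA).congr_fun (fun t ht => ?_) measurableSet_Ioi
  have ht0 : 0 < t := by linarith [mem_Ioi.1 ht]
  simp only [kt]
  rw [neg_zero, zero_sub, Real.rpow_neg_one]
  field_simp

theorem hasDerivAt_tailInt {t : ℝ} (ht : 2 < t) (hn : t ∉ Set.range (Nat.cast : ℕ → ℝ)) :
    HasDerivAt tailInt (-((ψ t - t) * wgt t)) t := by
  have hlt : (⌊t⌋₊ : ℝ) < t :=
    lt_of_le_of_ne (Nat.floor_le (by linarith)) fun h => hn ⟨_, h⟩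
  have hc : ContinuousAt (fun y => (ψ y - y) * wgt y) t := by
    refine ((ContinuousAt.congr (continuousAt_const (y := ψ t)) ?_).sub continuousAt_id).mul
      (continuousOn_wgt.continuousAt (Ioi_mem_nhds (by linarith)))
    filter_upwards [Ioo_mem_nhds hlt (Nat.lt_floor_add_one t)] with y hy
    rw [Chebyshev.psi, Chebyshev.psi,
      (Nat.floor_eq_iff (le_trans (Nat.cast_nonneg _) hy.1.le)).2 ⟨hy.1.le, hy.2⟩]
  have hm : Measurable fun y => (ψ y - y) * wgt y :=
    (measurable_psi.sub measurable_id).mul measurable_wgt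
  have h := intervalIntegral.integral_hasDerivAt_right (intervalIntegrable_tail le_rfl ht.le)
    hm.aestronglyMeasurable.stronglyMeasurableAtFilter hc
  refine (h.const_sub (tailInt 2)).congr_of_eventuallyEq ?_
  filter_upwards [Ici_mem_nhds ht] with y hy
  rw [← tailInt_sub le_rfl hy]
  ring

theorem mul_trans_jt (hA : 2 ≤ A) {s : ℂ} (hs : 0 < s.re) :
    s * trans A jt s = (tailInt A : ℂ) * (A : ℂ) ^ (-s) - trans A kt s := by
  have hA0 : 0 < A := by linarith
  have hs0 : s ≠ 0 := fun h => by simp [h] at hs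
  set F : ℝ → ℂ := fun t => (jt t : ℂ) * (t : ℂ) ^ (-s)
  have hint : IntegrableOn (fun t : ℝ => -((kt t : ℂ) * (t : ℂ) ^ (-s - 1)) -
      s * ((jt t : ℂ) * (t : ℂ) ^ (-s - 1))) (Ioi A) :=
    (integrable_kernel (by linarith) measurable_kt (conv_kt hA hs.le) le_rfl).neg.sub
      ((integrable_kernel (by linarith) continuous_jt.measurable (conv_jt hA hs)
        le_rfl).const_mul s)
  have hftc : ∀ Y, A ≤ Y → ∫ t in A..Y, (-((kt t : ℂ) * (t : ℂ) ^ (-s - 1)) -
      s * ((jt t : ℂ) * (t : ℂ) ^ (-s - 1))) = F Y - F A := fun Y hY => by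
    refine integral_eq_of_hasDerivAt_off_countable_of_le F _ hY
      (Set.countable_range (Nat.cast : ℕ → ℝ)) ?_ (fun t ht => ?_)
      ((intervalIntegrable_iff_integrableOn_Ioc_of_le hY).2 (hint.mono_set Ioc_subset_Ioi_self))
    · exact ((continuous_ofReal.comp continuous_jt).continuousOn).mul fun t ht =>
        (continuousAt_ofReal_cpow_const t _ (Or.inr (by linarith [ht.1]))).continuousWithinAt
    · have ht2 : 2 < t := lt_of_le_of_lt hA ht.1.1
      have hd := ((hasDerivAt_tailInt ht2 ht.2).congr_of_eventuallyEq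
        (eventually_of_mem (Ici_mem_nhds ht2) fun y hy => jt_eq hy)).ofReal_comp
      refine (hd.mul (hasDerivAt_ofReal_cpow_const (by linarith : t ≠ 0)
        (neg_ne_zero.2 hs0))).congr_deriv ?_
      have e : (t : ℂ) ^ (-s) = (t : ℂ) ^ (-s - 1) * (t : ℂ) := by
        conv_lhs => rw [show -s = (-s - 1) + 1 by ring]
        rw [cpow_add _ _ (ofReal_ne_zero.2 (by linarith : t ≠ 0)), cpow_one]
      rw [e, kt]
      push_cast
      ring
  have hlim : Tendsto (fun Y : ℝ => F Y - F A) atTop (𝓝 (0 - F A)) := by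
    refine Tendsto.sub_const (tendsto_zero_iff_norm_tendsto_zero.2 ?_) _
    obtain ⟨C, -, h⟩ := exists_abs_jt_le
    refine squeeze_zero' (Eventually.of_forall fun Y => norm_nonneg _)
      ((eventually_gt_atTop 0).mono fun Y hY => ?_)
      (by simpa using (tendsto_rpow_neg_atTop hs).const_mul C)
    rw [norm_mul, norm_real, norm_cpow_eq_rpow_re_of_pos hY, neg_re]
    exact mul_le_mul_of_nonneg_right (h Y) (Real.rpow_nonneg hY.le _)
  have h := tendsto_nhds_unique
    (intervalIntegral_tendsto_integral_Ioi A hint tendsto_id)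
    (hlim.congr' ((eventually_ge_atTop A).mono fun Y hY => (hftc Y hY).symm))
  have hneg : IntegrableOn (fun t : ℝ => -((kt t : ℂ) * (t : ℂ) ^ (-s - 1))) (Ioi A) :=
    (integrable_kernel (by linarith) measurable_kt (conv_kt hA hs.le) le_rfl).neg
  rw [integral_sub hneg
    ((integrable_kernel (by linarith) continuous_jt.measurable (conv_jt hA hs) le_rfl).const_mul s),
    integral_neg, integral_const_mul] at h
  simp only [F, jt_eq hA, zero_sub] at h
  simp only [trans]
  linear_combination -h

theorem trans_rpow (hA : 0 < A) {b : ℝ} {s : ℂ} (hs : -b < s.re) :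
    trans A (fun t => t ^ (-b)) s = (A : ℂ) ^ (-(s + b)) / (s + b) := by
  have e : ∀ t ∈ Ioi A, ((t ^ (-b) : ℝ) : ℂ) * (t : ℂ) ^ (-s - 1) =
      (t : ℂ) ^ (-(s + b) - 1) := fun t ht => by
    rw [ofReal_cpow (hA.trans ht).le, ← cpow_add _ _ (ofReal_ne_zero.2 (hA.trans ht).ne')]
    congr 1
    push_cast
    ring
  rw [trans, setIntegral_congr_fun measurableSet_Ioi e,
    integral_Ioi_cpow_of_lt (by simp; linarith) hA, sub_add_cancel, neg_div_neg_eq]

theorem trans_tendsto_zero_right (hA : 2 ≤ A) :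
    Tendsto (fun x : ℝ => trans A kt x) (𝓝[>] 0) (𝓝 (tailInt A : ℂ)) := by
  have e : (tailInt A : ℂ) = trans A kt ((0 : ℝ) : ℂ) := by
    rw [trans_ofReal (by linarith), tailInt]
    congr 1
    refine setIntegral_congr_fun measurableSet_Ioi fun t ht => ?_
    have ht0 : 0 < t := by linarith [mem_Ioi.1 ht]
    simp only [kt]
    rw [neg_zero, zero_sub, Real.rpow_neg_one]
    field_simp
  rw [e]
  refine tendsto_integral_filter_of_dominated_convergence
    (fun t => |kt t| * t ^ (-(0 : ℝ) - 1))
    (Eventually.of_forall fun x => aestronglyMeasurable_kernel (by linarith) measurable_kt _)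
    (eventually_nhdsWithin_of_forall fun x (hx : 0 < x) =>
      (ae_restrict_mem measurableSet_Ioi).mono fun t ht => ?_)
    ((conv_kt hA le_rfl).norm.congr ((ae_restrict_mem measurableSet_Ioi).mono fun t ht => ?_))
    ((ae_restrict_mem measurableSet_Ioi).mono fun t ht => ?_)
  · rw [norm_kernel (by linarith) ht, ofReal_re]
    exact mul_le_mul_of_nonneg_left (Real.rpow_le_rpow_of_exponent_le
      (by linarith [mem_Ioi.1 ht]) (by linarith)) (abs_nonneg _)
  · simp only [norm_mul, Real.norm_eq_abs,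
      abs_of_nonneg (Real.rpow_nonneg (show (0 : ℝ) ≤ t by linarith [mem_Ioi.1 ht]) _)]
  · have ht0 : (t : ℂ) ≠ 0 := ofReal_ne_zero.2 (by linarith [mem_Ioi.1 ht])
    refine (Continuous.tendsto' ?_ 0 _ rfl).mono_left nhdsWithin_le_nhds
    exact continuous_const.mul
      ((continuous_ofReal.neg.sub continuous_const).const_cpow (Or.inl ht0))

/-! ### The second derivative -/

theorem conv_err (hA : 2 ≤ A) {u : ℝ} (hu : 1 < u) : Conv A (fun t => ψ t - t) u := by
  obtain ⟨C, hC, h⟩ := exists_abs_err_le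
  refine conv_of_abs_le (by linarith) (measurable_psi.sub measurable_id)
    (C := C / Real.log 2) (a := 1) (fun t ht => ?_) hu
  have ht2 : 2 ≤ t := hA.trans ht.out.le
  refine (h t ht2).trans ?_
  rw [Real.rpow_one, ← mul_div_assoc, mul_comm (C / _) t, ← mul_div_assoc, mul_comm C]
  exact div_le_div_of_nonneg_left (by positivity) (Real.log_pos one_lt_two)
    (Real.log_le_log two_pos ht2)

theorem conv_psi : Conv 1 ψ 2 := by
  refine conv_of_abs_le le_rfl measurable_psi (C := Real.log 4 + 4) (a := 1) (fun t ht => ?_)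
    one_lt_two
  rw [abs_of_nonneg (Chebyshev.psi_nonneg t), Real.rpow_one]
  exact Chebyshev.psi_le_const_mul_self (by linarith [mem_Ioi.1 ht])

theorem differentiableAt_cut (A : ℝ) (z : ℂ) :
    DifferentiableAt ℂ (trans 1 ((Iic A).indicator ψ)) z :=
  differentiableAt_trans le_rfl (measurable_psi.indicator measurableSet_Iic)
    (conv_cut le_rfl measurable_psi conv_psi A (z.re - 1)) (by linarith)

theorem trans_err_eq (hA : 2 ≤ A) {z : ℂ} (hz : 1 < z.re) :
    trans A (fun t => ψ t - t) z = phiC A z := by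
  have hA0 : 0 < A := by linarith
  have hz0 : z ≠ 0 := fun h => by simp [h] at hz; linarith
  have hz1 : z ≠ 1 := fun h => by simp [h] at hz
  have hL := LSeries_eq_mul_integral_of_nonneg (fun n => ArithmeticFunction.vonMangoldt n)
    zero_le_one hz ?_ fun n => ArithmeticFunction.vonMangoldt_nonneg
  rotate_left
  · refine Asymptotics.IsBigO.of_bound (Real.log 4 + 4) (Eventually.of_forall fun n => ?_)
    rw [Real.rpow_one, Real.norm_of_nonneg (Finset.sum_nonneg fun _ _ =>
      ArithmeticFunction.vonMangoldt_nonneg), Real.norm_of_nonneg (Nat.cast_nonneg n)]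
    refine le_trans (le_of_eq ?_) (Chebyshev.psi_le_const_mul_self (Nat.cast_nonneg n))
    rw [Chebyshev.psi, Nat.floor_natCast]
    exact Finset.sum_congr (by ext k; simp; omega) fun _ _ => rfl
  rw [FA.PsiOscillation.lSeries_vonMangoldt_eq_pole hz] at hL
  have e1 : ∫ t in Ioi (1 : ℝ), (∑ k ∈ Finset.Icc 1 ⌊t⌋₊,
      (ArithmeticFunction.vonMangoldt k : ℂ)) * (t : ℂ) ^ (-(z + 1)) = trans 1 ψ z := by
    refine setIntegral_congr_fun measurableSet_Ioi fun t _ => ?_
    rw [← ofReal_sum, show -(z + 1) = -z - 1 by ring, Chebyshev.psi]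
    congr 3
  rw [e1] at hL
  have hcA : Conv A ψ z.re := (conv_of_abs_le le_rfl measurable_psi (C := Real.log 4 + 4) (a := 1)
    (fun t ht => by
      rw [abs_of_nonneg (Chebyshev.psi_nonneg t), Real.rpow_one]
      exact Chebyshev.psi_le_const_mul_self (by linarith [mem_Ioi.1 ht])) hz).mono_set
    (Ioi_subset_Ioi (by linarith))
  have hc1 : Conv 1 ψ z.re := conv_of_abs_le le_rfl measurable_psi (C := Real.log 4 + 4) (a := 1)
    (fun t ht => by
      rw [abs_of_nonneg (Chebyshev.psi_nonneg t), Real.rpow_one]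
      exact Chebyshev.psi_le_const_mul_self (by linarith [mem_Ioi.1 ht])) hz
  have esplit : trans 1 ψ z = trans 1 ((Iic A).indicator ψ) z + trans A ψ z := by
    simp only [trans]
    rw [← Ioc_union_Ioi_eq_Ioi (show (1 : ℝ) ≤ A by linarith),
      setIntegral_union Ioc_disjoint_Ioi_same measurableSet_Ioi
        ((integrable_kernel le_rfl measurable_psi hc1 le_rfl).mono_set Ioc_subset_Ioi_self)
        (integrable_kernel (by linarith) measurable_psi hcA le_rfl),
      Ioc_union_Ioi_eq_Ioi (show (1 : ℝ) ≤ A by linarith)]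
    congr 1
    rw [← integral_indicator measurableSet_Ioc, ← integral_indicator measurableSet_Ioi]
    refine integral_congr_ae (Eventually.of_forall fun t => ?_)
    simp only [indicator_apply, mem_Ioc, mem_Ioi, mem_Iic]
    by_cases h1 : 1 < t
    · by_cases h2 : t ≤ A
      · rw [if_pos ⟨h1, h2⟩, if_pos h1, if_pos h2]
      · rw [if_neg (fun h => h2 h.2), if_pos h1, if_neg h2, ofReal_zero, zero_mul]
    · rw [if_neg (fun h => h1 h.1), if_neg h1]
  have hid : IntegrableOn (fun t : ℝ => ((t : ℝ) : ℂ) * (t : ℂ) ^ (-z - 1)) (Ioi A) :=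
    integrable_kernel (g := fun t : ℝ => t) (by linarith) measurable_id
      (conv_of_abs_le (by linarith) measurable_id (C := 1) (a := 1) (fun t ht => by
        show |t| ≤ _
        rw [abs_of_pos (hA0.trans ht), Real.rpow_one, one_mul]) hz) le_rfl
  have elin : trans A (fun t => ψ t - t) z = trans A ψ z - (A : ℂ) ^ (1 - z) / (z - 1) := by
    simp only [trans, ofReal_sub, sub_mul]
    rw [integral_sub (integrable_kernel (by linarith) measurable_psi hcA le_rfl) hid,
      setIntegral_congr_fun measurableSet_Ioi (fun t ht => show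
        ((t : ℝ) : ℂ) * (t : ℂ) ^ (-z - 1) = (t : ℂ) ^ (-z) by
          conv_lhs => rw [← cpow_one (t : ℂ), cpow_one (t : ℂ)]
          nth_rewrite 1 [← cpow_one (t : ℂ)]
          rw [← cpow_add _ _ (ofReal_ne_zero.2 (hA0.trans ht).ne')]
          congr 1
          ring),
      integral_Ioi_cpow_of_lt (by simp; linarith) hA0]
    congr 1
    rw [show -z + 1 = 1 - z by ring, neg_div, ← div_neg, neg_sub]
  have hd : dslope (fun w : ℂ => 1 / w - (A : ℂ) ^ (1 - w)) 1 z =
      (z - 1)⁻¹ * (1 / z - (A : ℂ) ^ (1 - z)) := by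
    rw [dslope_of_ne _ hz1, slope_def_module]
    simp
  rw [phiC, hd, elin]
  have hzs : z - 1 ≠ 0 := sub_ne_zero.2 hz1
  have hT : trans A ψ z =
      ((z - 1)⁻¹ - deriv riemannZeta₁ z / riemannZeta₁ z) / z -
        trans 1 ((Iic A).indicator ψ) z := by
    rw [hL, esplit, mul_div_cancel_left₀ _ hz0]
    ring
  rw [hT]
  field_simp
  ring

theorem isOpen_good : IsOpen {z : ℂ | 0 < z.re ∧ riemannZeta₁ z ≠ 0} :=
  (isOpen_lt continuous_const continuous_re).inter
    (isOpen_ne_fun differentiable_riemannZeta₁.continuous continuous_const)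

theorem analyticOnNhd_phiC (hA : 0 < A) :
    AnalyticOnNhd ℂ (phiC A) {z | 0 < z.re ∧ riemannZeta₁ z ≠ 0} := by
  refine DifferentiableOn.analyticOnNhd (fun z hz => ?_) isOpen_good
  have hz0 : z ≠ 0 := fun h => by simp [h] at hz
  have hd : DifferentiableOn ℂ (dslope (fun w : ℂ => 1 / w - (A : ℂ) ^ (1 - w)) 1)
      {w : ℂ | 0 < w.re} := by
    refine (differentiableOn_dslope ((isOpen_lt continuous_const continuous_re).mem_nhds
      (by simp))).2 fun w hw => ?_
    have hw0 : w ≠ 0 := fun h => by simp [h] at hw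
    exact (((differentiableAt_const _).div differentiableAt_id hw0).sub
      (((differentiableAt_const _).sub differentiableAt_id).const_cpow
        (Or.inl (ofReal_ne_zero.2 hA.ne')))).differentiableWithinAt
  refine DifferentiableAt.differentiableWithinAt ?_
  exact (((((differentiable_riemannZeta₁.deriv z).div (differentiable_riemannZeta₁ z) hz.2).neg).div
    differentiableAt_id hz0).add (hd.differentiableAt
      ((isOpen_lt continuous_const continuous_re).mem_nhds hz.1))).sub (differentiableAt_cut A z)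

theorem good_of_one_lt_re {z : ℂ} (hz : 1 < z.re) : 0 < z.re ∧ riemannZeta₁ z ≠ 0 := by
  have h1 : z ≠ 1 := fun h => by simp [h] at hz
  exact ⟨by linarith, fun h => riemannZeta_ne_zero_of_one_lt_re hz
    (by rw [riemannZeta_eq_inv_sub_mul h1, h, mul_zero])⟩

/-- The domain of `secondC`. -/
theorem isOpen_good_shift : IsOpen {s : ℂ | -1 < s.re ∧ riemannZeta₁ (s + 1) ≠ 0} :=
  (isOpen_lt continuous_const continuous_re).inter
    (isOpen_ne_fun
      (differentiable_riemannZeta₁.continuous.comp (continuous_id.add continuous_const))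
      continuous_const)

theorem analyticOnNhd_secondC (hA : 0 < A) :
    AnalyticOnNhd ℂ (secondC A) {s | -1 < s.re ∧ riemannZeta₁ (s + 1) ≠ 0} := by
  intro s hs
  have hmem : (s + 1) ∈ {z : ℂ | 0 < z.re ∧ riemannZeta₁ z ≠ 0} :=
    ⟨by simp; linarith [hs.1], hs.2⟩
  have hsh : AnalyticAt ℂ (fun w : ℂ => w + 1) s := analyticAt_id.add analyticAt_const
  exact (((analyticOnNhd_phiC hA) _ hmem).fun_comp (f := fun w : ℂ => w + 1) hsh).fun_sub
    (((analyticOnNhd_phiC hA).deriv _ hmem).fun_comp (f := fun w : ℂ => w + 1) hsh)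

theorem deriv_deriv_trans_kt (hA : 2 ≤ A) {s : ℂ} (hs : 0 < s.re) :
    deriv (deriv (trans A kt)) s = secondC A s := by
  have hA1 : 1 ≤ A := by linarith
  have hA0 : 0 < A := by linarith
  have h2 := iteratedDeriv_trans hA1 measurable_kt (u := 0)
    (fun w hw => conv_kt hA hw.le) 2 s hs
  rw [iteratedDeriv_succ, iteratedDeriv_one] at h2
  rw [h2, secondC]
  have hz : 1 < (s + 1).re := by simp; linarith
  obtain ⟨u, hu1, hu2⟩ := exists_between hz
  have hder : deriv (phiC A) (s + 1) =
      trans A (fun t => -Real.log t * (ψ t - t)) (s + 1) := by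
    rw [← (hasDerivAt_trans (g := fun t => ψ t - t) hA1 (measurable_psi.sub measurable_id)
      (conv_err hA hu1) hu2).deriv]
    exact EventuallyEq.deriv_eq (eventually_of_mem
      ((isOpen_lt continuous_const continuous_re).mem_nhds hz)
      fun w hw => (trans_err_eq hA hw).symm)
  rw [hder, ← trans_err_eq hA hz, trans, trans, trans, ← integral_sub
    (integrable_kernel (g := fun t => ψ t - t) hA1 (measurable_psi.sub measurable_id)
      (conv_err hA hu1) hu2.le)
    (integrable_kernel (g := fun t => -Real.log t * (ψ t - t)) hA1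
      (Real.measurable_log.neg.mul (measurable_psi.sub measurable_id))
      (conv_log hA1 (measurable_psi.sub measurable_id) (conv_err hA hu1) hu2) le_rfl)]
  refine setIntegral_congr_fun measurableSet_Ioi fun t ht => ?_
  have ht0 : (t : ℂ) ≠ 0 := ofReal_ne_zero.2 (hA0.trans ht).ne'
  have hl : Real.log t ≠ 0 := (Real.log_pos (by linarith [mem_Ioi.1 ht])).ne'
  rw [show -(s + 1) - 1 = (-s - 1) + -1 by ring, cpow_add _ _ ht0, cpow_neg_one, kt, wgt]
  have hlc : (Real.log t : ℂ) ≠ 0 := ofReal_ne_zero.2 hl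
  push_cast
  field_simp
  ring

end FA.Nicolas
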