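import Fermat.Agent.Nicolas.Continuation
import Fermat.Agent.PsiOscillation.Landau
import Mathlib.Analysis.Complex.HasPrimitives
import Mathlib.Analysis.Convex.Topology

/-!
# One-sided bounds for `tailInt` and the zeros of `ζ`

If `e tailInt t ≤ C t ^ (-b)` for large `t`, Landau's lemma makes the transform of
`C t ^ (-b) - e tailInt t` holomorphic in `re s > -b`, so `ζ` has no zero with `re z > 1 - b`.
-/

set_option autoImplicit false

noncomputable section

open MeasureTheory Set Filter Complex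
open scoped Topology Chebyshev

namespace FA.Nicolas

variable {A C e b : ℝ}

/-- `C t ^ (-b) - e tailInt t`. -/
def gap (C e b t : ℝ) : ℝ := C * t ^ (-b) - e * jt t

theorem measurable_gap (C e b : ℝ) : Measurable (gap C e b) :=
  ((measurable_id.pow_const _).const_mul C).sub (continuous_jt.measurable.const_mul e)

theorem conv_gap (hA : 2 ≤ A) (hb : 0 ≤ b) {u : ℝ} (hu : 0 < u) : Conv A (gap C e b) u := by
  obtain ⟨D, hD, h⟩ := exists_abs_jt_le
  refine conv_of_abs_le (by linarith) (measurable_gap C e b) (C := |C| + |e| * D) (a := 0)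
    (fun t ht => ?_) hu
  have ht1 : 1 ≤ t := by linarith [mem_Ioi.1 ht]
  rw [Real.rpow_zero, mul_one]
  refine (abs_sub _ _).trans (add_le_add ?_ ?_)
  · rw [abs_mul, abs_of_nonneg (Real.rpow_nonneg (by linarith) _)]
    exact mul_le_of_le_one_right (abs_nonneg C)
      (Real.rpow_le_one_of_one_le_of_nonpos ht1 (by linarith))
  · rw [abs_mul]
    exact mul_le_mul_of_nonneg_left (h t) (abs_nonneg e)

/-- `s G s - s C A ^ (-(s + b)) / (s + b) + e tailInt A A ^ (-s)`, `G` the transform of `gap`. -/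
def aux (A C e b : ℝ) (s : ℂ) : ℂ :=
  s * trans A (gap C e b) s - s * C * (A : ℂ) ^ (-(s + b)) / (s + b) +
    e * tailInt A * (A : ℂ) ^ (-s)

theorem aux_eq (hA : 2 ≤ A) (hb : 0 ≤ b) {s : ℂ} (hs : 0 < s.re) :
    aux A C e b s = e * trans A kt s := by
  have hA0 : 0 < A := by linarith
  have hT : trans A (gap C e b) s = C * trans A (fun t => t ^ (-b)) s - e * trans A jt s := by
    have hi1 : IntegrableOn (fun t : ℝ => ((t ^ (-b) : ℝ) : ℂ) * (t : ℂ) ^ (-s - 1)) (Ioi A) :=
      integrable_kernel (g := fun t : ℝ => t ^ (-b)) (by linarith) (measurable_id.pow_const _)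
        (conv_of_abs_le (by linarith) (measurable_id.pow_const _) (C := 1) (a := -b) (fun t ht => by
          show |t ^ (-b)| ≤ _
          rw [one_mul, abs_of_nonneg (Real.rpow_nonneg (by linarith [mem_Ioi.1 ht]) _)])
          (show -b < s.re by linarith)) le_rfl
    have hi2 := integrable_kernel (show (1 : ℝ) ≤ A by linarith) continuous_jt.measurable
      (conv_jt hA hs) le_rfl
    simp only [trans]
    rw [← integral_const_mul, ← integral_const_mul,
      ← integral_sub (hi1.const_mul _) (hi2.const_mul _)]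
    refine setIntegral_congr_fun measurableSet_Ioi fun t _ => ?_
    simp only [gap]
    push_cast
    ring
  rw [aux, hT, trans_rpow hA0 (by linarith)]
  linear_combination (-(e : ℂ)) * mul_trans_jt hA hs

theorem differentiableAt_aux (hA : 2 ≤ A) {w : ℝ} (hw : Conv A (gap C e b) w) (hb : -b ≤ w)
    {s : ℂ} (hs : w < s.re) : DifferentiableAt ℂ (aux A C e b) s := by
  have hA0 : (A : ℂ) ≠ 0 := ofReal_ne_zero.2 (by linarith)
  have hne : s + b ≠ 0 := fun h => by
    have := congrArg Complex.re h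
    simp at this
    linarith
  exact ((differentiableAt_id.mul
    (differentiableAt_trans (by linarith) (measurable_gap C e b) hw hs)).sub
    (((differentiableAt_id.mul (differentiableAt_const _)).mul
      ((differentiableAt_id.add (differentiableAt_const _)).neg.const_cpow (Or.inl hA0))).div
      (differentiableAt_id.add (differentiableAt_const _)) hne)).add
    ((differentiableAt_const _).mul (differentiableAt_id.neg.const_cpow (Or.inl hA0)))

theorem deriv_deriv_aux (hA : 2 ≤ A) (hb : 0 ≤ b) {s : ℂ} (hs : 0 < s.re) :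
    deriv (deriv (aux A C e b)) s = e * secondC A s := by
  have hU : IsOpen {w : ℂ | 0 < w.re} := isOpen_lt continuous_const continuous_re
  have h1 : EqOn (deriv (aux A C e b)) (fun w => e * deriv (trans A kt) w) {w : ℂ | 0 < w.re} :=
    fun w hw => by
      rw [EventuallyEq.deriv_eq (eventually_of_mem (hU.mem_nhds hw) fun z hz => aux_eq hA hb hz),
        deriv_const_mul_field]
  rw [EventuallyEq.deriv_eq (eventually_of_mem (hU.mem_nhds hs) h1), deriv_const_mul_field,
    deriv_deriv_trans_kt hA hs]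

/-- `aux''` is the continuation on any convex open set where both make sense. -/
theorem secondC_eqOn (hA : 2 ≤ A) (hb : 0 < b) {v : ℝ} (hv : -b ≤ v)
    (hconv : ∀ w, v < w → Conv A (gap C e b) w) {W : Set ℂ} (hWc : Convex ℝ W)
    (hWsub : W ⊆ {s | -1 < s.re ∧ riemannZeta₁ (s + 1) ≠ 0}) {p : ℂ} (hp : p ∈ W)
    (hp0 : 0 < p.re) (hvp : v < p.re) :
    EqOn (deriv (deriv (aux A C e b))) (fun s => e * secondC A s) (W ∩ {s | v < s.re}) := by
  have hO : IsOpen {s : ℂ | v < s.re} := isOpen_lt continuous_const continuous_re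
  have hd : DifferentiableOn ℂ (aux A C e b) {s : ℂ | v < s.re} := fun s hs => by
    obtain ⟨w, h1, h2⟩ := exists_between (show v < s.re from hs)
    exact (differentiableAt_aux hA (hconv w h1) (by linarith) h2).differentiableWithinAt
  have h2 : AnalyticOnNhd ℂ (deriv (deriv (aux A C e b))) {s : ℂ | v < s.re} :=
    (hd.analyticOnNhd hO).deriv.deriv
  refine AnalyticOnNhd.eqOn_of_preconnected_of_eventuallyEq (h2.mono inter_subset_right)
    (fun s hs => analyticAt_const.fun_mul
      (analyticOnNhd_secondC (by linarith) s (hWsub hs.1)))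
    (hWc.inter (convex_halfSpace_re_gt v)).isPreconnected
    (z₀ := p) ⟨hp, hvp⟩ ?_
  exact eventually_of_mem ((isOpen_lt continuous_const continuous_re).mem_nhds hp0)
    fun s hs => deriv_deriv_aux hA hb.le hs

theorem exists_convex_nhd {a b y : ℝ} (hab : a ≤ b) (ha : -1 < a)
    (hz : ∀ x ∈ Icc a b, riemannZeta₁ ((x + 1 : ℝ) + y * I) ≠ 0) :
    ∃ δ > 0, ∃ W : Set ℂ, Convex ℝ W ∧
      W ⊆ {s | -1 < s.re ∧ riemannZeta₁ (s + 1) ≠ 0} ∧
      ∀ x ∈ Icc a b, Metric.ball ((x : ℂ) + y * I) δ ⊆ W := by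
  set K : Set ℂ := segment ℝ ((a : ℂ) + y * I) ((b : ℂ) + y * I)
  have hK : ∀ s ∈ K, ∃ x ∈ Icc a b, s = (x : ℂ) + y * I := fun s hs => by
    obtain ⟨u₀, hu₀, rfl⟩ := (segment_eq_image' ℝ _ _).subset hs
    refine ⟨a + u₀ * (b - a), ⟨by nlinarith [hu₀.1], by nlinarith [hu₀.2]⟩, ?_⟩
    simp only [Complex.real_smul]
    push_cast
    ring
  have hKsub : K ⊆ {s | -1 < s.re ∧ riemannZeta₁ (s + 1) ≠ 0} := fun s hs => by
    obtain ⟨x, hx, rfl⟩ := hK s hs
    refine ⟨by simp; linarith [hx.1], ?_⟩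
    convert hz x hx using 2
    push_cast
    ring
  have hKc : IsCompact K := by
    rw [show K = (fun u₀ : ℝ => ((a : ℂ) + y * I) + u₀ • (((b : ℂ) + y * I) - ((a : ℂ) + y * I))) ''
      Icc (0 : ℝ) 1 from segment_eq_image' ℝ _ _]
    exact isCompact_Icc.image (by fun_prop)
  obtain ⟨δ, hδ, hsub⟩ := hKc.exists_thickening_subset_open isOpen_good_shift hKsub
  refine ⟨δ, hδ, Metric.thickening δ K, (convex_segment _ _).thickening δ, hsub,
    fun x hx => ?_⟩
  refine Metric.ball_subset_thickening ?_ δ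
  rcases hab.eq_or_lt with h | h
  · rw [show x = a from le_antisymm (h ▸ hx.2) hx.1]
    exact left_mem_segment ℝ _ _
  · refine (segment_eq_image' ℝ _ _).symm.subset ⟨(x - a) / (b - a), ⟨?_, ?_⟩, ?_⟩
    · exact div_nonneg (by linarith [hx.1]) (by linarith)
    · exact (div_le_one (by linarith)).2 (by linarith [hx.2])
    · simp only [Complex.real_smul]
      have : (b : ℂ) - a ≠ 0 := by rw [← ofReal_sub]; exact ofReal_ne_zero.2 (by linarith)
      push_cast
      field_simp
      ring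

/-- **Landau's step**: the transform converges throughout `-b < re s`. -/
theorem conv_gap_of_bound (hA : 2 ≤ A) (hb : 0 < b) (hb1 : b < 1)
    (h : ∀ t ∈ Ioi A, e * tailInt t ≤ C * t ^ (-b)) {w : ℝ} (hw : -b < w) :
    Conv A (gap C e b) w := by
  have hA1 : 1 ≤ A := by linarith
  have hm := measurable_gap C e b
  have hpos : ∀ t ∈ Ioi A, 0 ≤ gap C e b t := fun t ht => by
    rw [gap, jt_eq (hA.trans ht.out.le)]
    linarith [h t ht]
  set S : Set ℝ := {u | -b < u ∧ Conv A (gap C e b) u}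
  have h1 : (1 : ℝ) ∈ S := ⟨by linarith, conv_gap hA hb.le one_pos⟩
  have hbdd : BddBelow S := ⟨-b, fun x hx => hx.1.le⟩
  set v := sInf S with hv
  have hvb : -b ≤ v := le_csInf ⟨1, h1⟩ fun x hx => hx.1.le
  have hconv : ∀ u, v < u → Conv A (gap C e b) u := fun u hu => by
    obtain ⟨x, hx, hxu⟩ := exists_lt_of_csInf_lt ⟨1, h1⟩ hu
    exact conv_mono hA1 hm hx.2 hxu.le
  rcases hvb.eq_or_lt with heq | hlt
  · exact hconv w (heq ▸ hw)
  exfalso
  have hv0 : v ≤ 0 := le_of_forall_gt_imp_ge_of_dense fun u hu =>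
    csInf_le hbdd ⟨by linarith, conv_gap hA hb.le hu⟩
  obtain ⟨a, ha⟩ : ∃ a, a = v - (v + b) / 2 := ⟨_, rfl⟩
  obtain ⟨δ, hδ, W, hWc, hWsub, hball⟩ := exists_convex_nhd (a := a) (b := 2) (y := 0)
    (by linarith) (by linarith) fun x hx => by
      have := PsiOscillation.riemannZeta₁_real_ne_zero (x := x + 1) (by linarith [hx.1])
      simpa using this
  obtain ⟨d, hd⟩ : ∃ d, d = min δ ((v + b) / 2) := ⟨_, rfl⟩
  have hd0 : 0 < d := hd ▸ lt_min hδ (by linarith)
  have hdδ : d ≤ δ := hd ▸ min_le_left _ _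
  have hdv : d ≤ (v + b) / 2 := hd ▸ min_le_right _ _
  obtain ⟨c, hc⟩ : ∃ c, c = v + d / 4 := ⟨_, rfl⟩
  set B : Set ℂ := Metric.ball (c : ℂ) (d / 2) with hB
  have hBW : B ⊆ W := by
    refine subset_trans (Metric.ball_subset_ball (show d / 2 ≤ δ by linarith)) ?_
    simpa using hball c ⟨by linarith, by linarith⟩
  have hBre : ∀ s ∈ B, -b < s.re := fun s hs => by
    rw [hB, Metric.mem_ball, dist_eq] at hs
    have := (abs_re_le_norm (s - c)).trans_lt hs
    rw [sub_re, ofReal_re, abs_lt] at this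
    linarith [this.1]
  have hBo : IsOpen B := Metric.isOpen_ball
  have hVo : IsOpen (B ∩ {s | v < s.re}) :=
    hBo.inter (isOpen_lt continuous_const continuous_re)
  have hVc : IsPreconnected (B ∩ {s : ℂ | v < s.re}) :=
    ((convex_ball _ _).inter (convex_halfSpace_re_gt v)).isPreconnected
  have h20 : ((2 : ℝ) : ℂ) ∈ W := by
    simpa using hball 2 ⟨by linarith, le_rfl⟩ (Metric.mem_ball_self hδ)
  have hkey := secondC_eqOn hA hb hvb hconv hWc hWsub h20 (by simp) (by simp; linarith)
  have hsec : DifferentiableOn ℂ (fun s => (e : ℂ) * secondC A s) B := fun s hs =>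
    (analyticAt_const.fun_mul
      (analyticOnNhd_secondC (by linarith) s
        (hWsub (hBW hs)))).differentiableAt.differentiableWithinAt
  obtain ⟨P₁, hP₁⟩ := hsec.isExactOn_ball
  have hP₁d : DifferentiableOn ℂ P₁ B := fun s hs =>
    (hP₁ s hs).differentiableAt.differentiableWithinAt
  obtain ⟨P₂, hP₂⟩ := hP₁d.isExactOn_ball
  have hM : DifferentiableOn ℂ (aux A C e b) {s : ℂ | v < s.re} := fun s hs => by
    obtain ⟨u, hu1, hu2⟩ := exists_between (show v < s.re from hs)
    exact (differentiableAt_aux hA (hconv u hu1) (by linarith) hu2).differentiableWithinAt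
  have hM1 : DifferentiableOn ℂ (deriv (aux A C e b)) (B ∩ {s | v < s.re}) :=
    ((hM.analyticOnNhd (isOpen_lt continuous_const continuous_re)).deriv.differentiableOn).mono
      inter_subset_right
  obtain ⟨a₁, ha₁⟩ := hVo.exists_eq_add_of_deriv_eq hVc hM1 (hP₁d.mono inter_subset_left)
    fun s hs => by
      rw [(hP₁ s hs.1).deriv]
      exact hkey ⟨hBW hs.1, hs.2⟩
  have hP₂d : DifferentiableOn ℂ (fun s => P₂ s + a₁ * s) B := fun s hs =>
    ((hP₂ s hs).differentiableAt.add
      (differentiableAt_id.const_mul a₁)).differentiableWithinAt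
  obtain ⟨a₂, ha₂⟩ := hVo.exists_eq_add_of_deriv_eq hVc (hM.mono inter_subset_right)
    (hP₂d.mono inter_subset_left) fun s hs => by
      rw [ha₁ hs, ((hP₂ s hs.1).fun_add ((hasDerivAt_id' s).const_mul a₁)).deriv, mul_one]
  obtain ⟨N, hN⟩ : ∃ N : ℂ → ℂ, N = fun s => P₂ s + a₁ * s + a₂ +
      s * C * (A : ℂ) ^ (-(s + b)) / (s + b) - e * tailInt A * (A : ℂ) ^ (-s) := ⟨_, rfl⟩
  have hA0 : (A : ℂ) ≠ 0 := ofReal_ne_zero.2 (by linarith)
  have hne : ∀ s ∈ B, s + b ≠ 0 := fun s hs h0 => by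
    have h2 := congrArg Complex.re h0
    simp at h2
    linarith [hBre s hs]
  have hNd : DifferentiableOn ℂ N B := by
    rw [hN]
    intro s hs
    exact ((((hP₂d.differentiableAt (hBo.mem_nhds hs)).add (differentiableAt_const _)).add
      (((differentiableAt_id.mul (differentiableAt_const _)).mul
        ((differentiableAt_id.add (differentiableAt_const _)).neg.const_cpow (Or.inl hA0))).div
        (differentiableAt_id.add (differentiableAt_const _)) (hne s hs))).sub
      ((differentiableAt_const _).mul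
        (differentiableAt_id.neg.const_cpow (Or.inl hA0)))).differentiableWithinAt
  have hNeq : ∀ s ∈ B ∩ {s | v < s.re}, N s = s * trans A (gap C e b) s := fun s hs => by
    have h2 : aux A C e b s = P₂ s + a₁ * s + a₂ := ha₂ hs
    rw [aux] at h2
    rw [hN]
    linear_combination -h2
  -- at `0` the numerator vanishes
  have hN0 : (0 : ℂ) ∈ B → N 0 = 0 := fun h0 => by
    have hreal : Tendsto (fun x : ℝ => (x : ℂ)) (𝓝[>] 0) (𝓝 0) :=
      (Complex.continuous_ofReal.tendsto' 0 0 Complex.ofReal_zero).mono_left nhdsWithin_le_nhds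
    have hb0 : ((0 : ℂ) + b) ≠ 0 := hne 0 h0
    have hlim : Tendsto (fun x : ℝ => (e : ℂ) * trans A kt x +
        (x : ℂ) * C * (A : ℂ) ^ (-((x : ℂ) + b)) / ((x : ℂ) + b) -
          e * tailInt A * (A : ℂ) ^ (-(x : ℂ))) (𝓝[>] 0) (𝓝 0) := by
      have h2 : Tendsto (fun s : ℂ => s * C * (A : ℂ) ^ (-(s + b)) / (s + b) -
          e * tailInt A * (A : ℂ) ^ (-s)) (𝓝 0) (𝓝 (-(e * tailInt A))) := by
        refine ContinuousAt.tendsto (f := fun s : ℂ => s * C * (A : ℂ) ^ (-(s + b)) / (s + b) -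
          e * tailInt A * (A : ℂ) ^ (-s)) ?_ |>.trans (le_of_eq ?_)
        · exact (((differentiableAt_id.mul (differentiableAt_const _)).mul
            ((differentiableAt_id.add (differentiableAt_const _)).neg.const_cpow
              (Or.inl hA0))).div (differentiableAt_id.add (differentiableAt_const _)) hb0).sub
            ((differentiableAt_const _).mul
              (differentiableAt_id.neg.const_cpow (Or.inl hA0))) |>.continuousAt
        · simp
      have h3 := ((trans_tendsto_zero_right hA).const_mul (e : ℂ)).add (h2.comp hreal)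
      rw [add_neg_cancel] at h3
      refine h3.congr fun x => ?_
      simp only [Function.comp_apply]
      ring
    refine tendsto_nhds_unique
      (((hNd.differentiableAt (hBo.mem_nhds h0)).continuousAt.tendsto.comp hreal)) (hlim.congr' ?_)
    filter_upwards [hreal (hBo.mem_nhds h0), self_mem_nhdsWithin] with x hx hx0
    have hx' : (0 : ℝ) < x := hx0
    simp only [Function.comp_apply]
    rw [hNeq x ⟨hx, by simpa using lt_of_le_of_lt hv0 hx'⟩,
      ← aux_eq (C := C) hA hb.le (show 0 < (x : ℂ).re by simpa using hx'), aux]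
    ring
  obtain ⟨F, hFd, hFeq⟩ : ∃ F : ℂ → ℂ, DifferentiableOn ℂ F B ∧
      EqOn F (trans A (gap C e b)) (B ∩ {s | v < s.re}) := by
    by_cases h0 : (0 : ℂ) ∈ B
    · refine ⟨dslope N 0, (Complex.differentiableOn_dslope (hBo.mem_nhds h0)).2 hNd,
        fun s hs => ?_⟩
      rcases eq_or_ne s 0 with rfl | hs0
      · obtain ⟨u, hu1, hu2⟩ := exists_between (show v < (0 : ℂ).re from hs.2)
        rw [dslope_same, EventuallyEq.deriv_eq (eventually_of_mem (hVo.mem_nhds hs) hNeq),
          ((hasDerivAt_id' (0 : ℂ)).fun_mul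
            (hasDerivAt_trans hA1 hm (hconv u hu1) hu2)).deriv]
        simp
      · rw [dslope_of_ne _ hs0, slope_def_field, hNeq s hs, hN0 h0, sub_zero, sub_zero,
          mul_div_cancel_left₀ _ hs0]
    · refine ⟨fun s => N s / s, fun s hs => ?_, fun s hs => ?_⟩
      · exact ((hNd.differentiableAt (hBo.mem_nhds hs)).div differentiableAt_id
          fun h' => h0 (h' ▸ hs)).differentiableWithinAt
      · simp only [hNeq s hs]
        exact mul_div_cancel_left₀ _ fun h' => h0 (h' ▸ hs.1)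
  have hx := conv_of_continuation hA1 hm hpos (show v < c by linarith) (show 0 < d / 2 by linarith)
    hconv hFd hFeq (x := v - d / 8) (by linarith) (by linarith)
  have := csInf_le hbdd (show v - d / 8 ∈ S from ⟨by linarith, hx⟩)
  linarith

/-- **No zero to the right of `1 - b`.** -/
theorem zeta₁_ne_zero_of_bound (hA : 2 ≤ A) (hb : 0 < b) (hb1 : b < 1) (he : e ≠ 0)
    (h : ∀ t ∈ Ioi A, e * tailInt t ≤ C * t ^ (-b)) {z : ℂ} (hz : 1 - b < z.re) :
    riemannZeta₁ z ≠ 0 := by
  intro h0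
  have hconv : ∀ w, -b < w → Conv A (gap C e b) w := fun w hw => conv_gap_of_bound hA hb hb1 h hw
  -- the rightmost zero on the horizontal line
  obtain ⟨y, hy⟩ : ∃ y, y = z.im := ⟨_, rfl⟩
  set Z : Set ℝ := {x | x ∈ Icc z.re 2 ∧ riemannZeta₁ ((x : ℂ) + y * I) = 0}
  have hz2 : z.re ≤ 2 := by
    by_contra h2
    exact (good_of_one_lt_re (show 1 < z.re by linarith)).2 h0
  have hzZ : z.re ∈ Z := ⟨⟨le_rfl, hz2⟩, by rw [hy, re_add_im]; exact h0⟩
  have hZc : IsClosed Z := isClosed_Icc.inter (isClosed_eq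
    (differentiable_riemannZeta₁.continuous.comp (by fun_prop)) continuous_const)
  have hZb : BddAbove Z := ⟨2, fun x hx => hx.1.2⟩
  set x₀ := sSup Z
  have hx₀ : x₀ ∈ Z := hZc.csSup_mem ⟨_, hzZ⟩ hZb
  have hx₀2 : x₀ < 2 := by
    refine hx₀.1.2.lt_of_ne fun h2 => ?_
    exact (good_of_one_lt_re (z := (x₀ : ℂ) + y * I) (by simp [h2])).2 hx₀.2
  have hright : ∀ x, x₀ < x → riemannZeta₁ ((x : ℂ) + y * I) ≠ 0 := fun x hx hzero => by
    rcases le_or_gt x 2 with h2 | h2
    · exact absurd (le_csSup hZb ⟨⟨hx₀.1.1.trans hx.le, h2⟩, hzero⟩) (not_le.2 hx)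
    · exact (good_of_one_lt_re (z := (x : ℂ) + y * I) (by simp; linarith)).2 hzero
  set ρ : ℂ := (x₀ : ℂ) + y * I with hρ
  have hρre : ρ.re = x₀ := by simp [hρ]
  have hx₀b : -b < x₀ - 1 := by linarith [hx₀.1.1]
  have hρ0 : ρ ≠ 0 := fun h' => by rw [h', zero_re] at hρre; linarith
  have hA0 : 0 < A := by linarith
  have hrel : ∀ x, x₀ < x → x ≤ 2 →
      deriv (deriv (aux A C e b)) (((x : ℂ) + y * I) - 1) =
        e * (phiC A ((x : ℂ) + y * I) - deriv (phiC A) ((x : ℂ) + y * I)) := by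
    intro x hx hx2
    obtain ⟨δ, hδ, W, hWc, hWsub, hball⟩ := exists_convex_nhd (a := x - 1) (b := 2) (y := y)
      (by linarith) (by linarith) fun u hu => hright (u + 1) (by linarith [hu.1])
    have hmem : ∀ u ∈ Icc (x - 1) 2, (u : ℂ) + y * I ∈ W := fun u hu =>
      hball u hu (Metric.mem_ball_self hδ)
    have hk := secondC_eqOn hA hb le_rfl hconv hWc hWsub
      (p := ((2 : ℝ) : ℂ) + y * I) (hmem 2 ⟨by linarith, le_rfl⟩) (by simp) (by simp; linarith)
      (x := (x : ℂ) + y * I - 1)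
      ⟨by convert hmem (x - 1) ⟨le_rfl, by linarith⟩ using 1; push_cast; ring,
        show -b < ((x : ℂ) + y * I - 1).re by simp; linarith⟩
    simp only [hk, secondC, sub_add_cancel]
  -- a primitive near `ρ`
  have hO : IsOpen {s : ℂ | -b < s.re} := isOpen_lt continuous_const continuous_re
  have hM2 : AnalyticOnNhd ℂ (deriv (deriv (aux A C e b))) {s : ℂ | -b < s.re} := by
    refine (DifferentiableOn.analyticOnNhd (fun s hs => ?_) hO).deriv.deriv
    obtain ⟨w, h1, h2⟩ := exists_between (show -b < s.re from hs)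
    exact (differentiableAt_aux hA (hconv w h1) h1.le h2).differentiableWithinAt
  obtain ⟨r, hr⟩ : ∃ r, r = min (x₀ - 1 + b) (2 - x₀) := ⟨_, rfl⟩
  have hr0 : 0 < r := hr ▸ lt_min (by linarith) (by linarith)
  have hrhs : DifferentiableOn ℂ (fun s => -(Complex.exp (-s) *
      deriv (deriv (aux A C e b)) (s - 1))) (Metric.ball ρ r) := fun s hs => by
    have hs' : -b < (s - 1).re := by
      rw [Metric.mem_ball, dist_eq] at hs
      have := (abs_re_le_norm (s - ρ)).trans_lt hs
      rw [sub_re, hρre, abs_lt] at this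
      rw [sub_re, one_re]
      linarith [this.1, hr.le.trans (min_le_left _ _)]
    exact ((differentiableAt_id.neg.cexp.mul ((hM2 _ hs').differentiableAt.fun_comp' s
      (differentiableAt_id.sub_const 1))).neg).differentiableWithinAt
  obtain ⟨g, hg⟩ := hrhs.isExactOn_ball
  obtain ⟨Q, hQ⟩ : ∃ Q : ℝ → ℂ, Q = fun t : ℝ =>
      (e : ℂ) * (Complex.exp (-(ρ + (t : ℂ))) * phiC A (ρ + (t : ℂ))) - g (ρ + (t : ℂ)) :=
    ⟨_, rfl⟩
  have hmemb : ∀ t ∈ Ioo 0 r, ρ + (t : ℂ) ∈ Metric.ball ρ r := fun t ht => by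
    rw [Metric.mem_ball, dist_eq, add_sub_cancel_left, norm_real, Real.norm_of_nonneg ht.1.le]
    exact ht.2
  have hQd : ∀ t ∈ Ioo 0 r, HasDerivAt Q 0 t := fun t ht => by
    have hxt : (((x₀ + t : ℝ) : ℂ) + y * I) = ρ + t := by rw [hρ]; push_cast; ring
    have hne := hright (x₀ + t) (by linarith [ht.1])
    have hrr := hrel (x₀ + t) (by linarith [ht.1])
      (by linarith [ht.2, hr.le.trans (min_le_right _ _)])
    rw [hxt] at hne hrr
    have hphi : HasDerivAt (phiC A) (deriv (phiC A) (ρ + t)) (ρ + t) :=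
      (analyticOnNhd_phiC hA0 _ ⟨by simp [hρre]; linarith [ht.1, hx₀.1.1], hne⟩
        ).differentiableAt.hasDerivAt
    have hd := ((((hasDerivAt_id' (ρ + (t : ℂ))).fun_neg.cexp.fun_mul hphi).const_mul
      (e : ℂ)).fun_sub (hg _ (hmemb t ht)))
    have hline : HasDerivAt (fun u : ℝ => ρ + (u : ℂ)) 1 t := by
      simpa using ((hasDerivAt_id' t).ofReal_comp).const_add ρ
    rw [hQ]
    refine (hd.comp t hline).congr_deriv ?_
    simp only [hrr]
    ring
  obtain ⟨q, hq⟩ := isOpen_Ioo.exists_is_const_of_deriv_eq_zero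
    (convex_Ioo 0 r).isPreconnected (fun t ht => (hQd t ht).differentiableAt.differentiableWithinAt)
    fun t ht => (hQd t ht).deriv
  -- `t Q t` tends to `0` and to `-e m exp (-ρ) / ρ`
  obtain ⟨m, hm, -, hlim⟩ :=
    PsiOscillation.exists_tendsto_logDeriv (ρ := ρ) (by rw [hρ]; exact hx₀.2)
  have ht0 : Tendsto (fun t : ℝ => (t : ℂ)) (𝓝[>] 0) (𝓝 0) :=
    (Complex.continuous_ofReal.tendsto' 0 0 Complex.ofReal_zero).mono_left nhdsWithin_le_nhds
  have hto : Tendsto (fun t : ℝ => ρ + (t : ℂ)) (𝓝[>] 0) (𝓝[≠] ρ) := by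
    refine tendsto_nhdsWithin_iff.2 ⟨by simpa using ht0.const_add ρ, ?_⟩
    filter_upwards [self_mem_nhdsWithin] with t ht
    simpa using (ne_of_gt (show (0 : ℝ) < t from ht))
  have hto' : Tendsto (fun t : ℝ => ρ + (t : ℂ)) (𝓝[>] 0) (𝓝 ρ) :=
    hto.mono_right nhdsWithin_le_nhds
  have hposre : 0 < ρ.re := by rw [hρre]; linarith
  have hreg : ContinuousAt (fun s : ℂ => dslope (fun w : ℂ => 1 / w - (A : ℂ) ^ (1 - w)) 1 s -
      trans 1 ((Iic A).indicator ψ) s) ρ := by
    refine ContinuousAt.sub ?_ (differentiableAt_cut A ρ).continuousAt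
    have hH : IsOpen {w : ℂ | 0 < w.re} := isOpen_lt continuous_const continuous_re
    refine (((differentiableOn_dslope (hH.mem_nhds (show (1 : ℂ) ∈ _ by simp))).2
      fun w hw => ?_).differentiableAt (hH.mem_nhds hposre)).continuousAt
    have hw0 : w ≠ 0 := fun h' => by simp [h'] at hw
    exact (((differentiableAt_const _).div differentiableAt_id hw0).sub
      (((differentiableAt_const _).sub differentiableAt_id).const_cpow
        (Or.inl (ofReal_ne_zero.2 hA0.ne')))).differentiableWithinAt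
  have hgc : ContinuousAt g ρ := (hg ρ (Metric.mem_ball_self hr0)).continuousAt
  have hexp : ContinuousAt (fun s : ℂ => Complex.exp (-s)) ρ := by fun_prop
  have hA' : Tendsto (fun t : ℝ => (t : ℂ) * Q t) (𝓝[>] 0)
      (𝓝 ((e : ℂ) * (Complex.exp (-ρ) * (-(m : ℂ) / ρ)))) := by
    have h1 := (((hexp.tendsto.comp hto').mul
      ((((hlim.comp hto).neg).div hto' hρ0).add
        (ht0.mul (hreg.tendsto.comp hto')))).const_mul (e : ℂ)).sub
      (ht0.mul (hgc.tendsto.comp hto'))
    rw [zero_mul, zero_mul, add_zero, sub_zero] at h1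
    refine h1.congr fun t => ?_
    simp only [hQ, phiC, Function.comp_apply, Pi.div_apply, add_sub_cancel_left]
    ring
  have hB' : Tendsto (fun t : ℝ => (t : ℂ) * Q t) (𝓝[>] 0) (𝓝 0) := by
    have := ht0.mul_const q
    rw [zero_mul] at this
    refine this.congr' ?_
    filter_upwards [Ioo_mem_nhdsGT hr0] with t ht
    rw [hq t ht]
  have := tendsto_nhds_unique hA' hB'
  simp [he, hρ0, Complex.exp_ne_zero, (show m ≠ 0 by omega)] at this

end FA.Nicolas
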