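import Fermat.Agent.Nicolas.Riemann
import Fermat.Agent.Nicolas.Oscillation
import Fermat.Agent.Root.SummaryVonKoch
import Fermat.Agent.PsiOscillation.Main
import Fermat.Agent.MertensThird.Extreme

/-!
# Nicolas's criterion

If `nic ≤ 0` eventually then `tailInt x ≤ B (1/√x + ((ψ x - x) / x)²)`; at a local maximum of
`tailInt x - M / √x` one has `ψ x - x = O (√x log x)`, and `ψ x - x` changes sign, so
`tailInt x ≤ M / √x` eventually and the Riemann hypothesis follows. If `nic ≥ 0` eventually then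
`tailInt ≥ 0`, with the same conclusion, which contradicts `nic < 0`.
-/

set_option autoImplicit false

noncomputable section

open MeasureTheory Filter Finset Real
open FA.ErdosKac (primesUpTo mem_primesUpTo)
open scoped Topology Chebyshev

namespace FA.Nicolas

/-- The primorial: the product of the first `k` primes. -/
def primorialNth (k : ℕ) : ℕ := ∏ i ∈ range k, Nat.nth Nat.Prime i

theorem riemannHypothesis_of_bound {A C e : ℝ} (hA : 2 ≤ A) (he : e ≠ 0)
    (h : ∀ t ∈ Set.Ioi A, e * tailInt t ≤ C * t ^ (-(1 / 2) : ℝ)) : RiemannHypothesis := by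
  refine FA.VonKoch.Summary.riemannHypothesis_iff_psi.2
    ((FA.VonKoch.Summary.zeroFree_iff_psi le_rfl (by norm_num)).1 fun s hs hs1 h0 => ?_)
  exact zeta₁_ne_zero_of_bound hA (by norm_num) (by norm_num) he h
    (show 1 - 1 / 2 < s.re by linarith) (PsiOscillation.riemannZeta₁_eq_zero h0 hs1)

theorem exists_le_of_nic_nonpos (h : ∀ᶠ x in atTop, nic x ≤ 0) : ∃ B, 0 < B ∧
    ∀ᶠ x in atTop, tailInt x ≤ B * (1 / √x + ((ψ x - x) / x) ^ 2) := by
  obtain ⟨C, hC⟩ := Chebyshev.psi_sub_theta_le_mul_sqrt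
  obtain ⟨C', hC'⟩ : ∃ C', C' = max C 0 := ⟨_, rfl⟩
  have hC0 : 0 ≤ C' := hC' ▸ le_max_right _ _
  refine ⟨C' + 20 * C' ^ 2 + 26, by positivity, ?_⟩
  filter_upwards [h, eventually_defect_bounds, tendsto_log_atTop.eventually_ge_atTop 1,
    eventually_ge_atTop (4 : ℝ)] with x h1 hd hl hx
  have hx0 : 0 < x := by linarith
  have hs := sqrt_pos.2 hx0
  have hs1 : 1 ≤ √x := by
    rw [← sqrt_one]; exact sqrt_le_sqrt (by linarith)
  have hpt : 0 ≤ ψ x - θ x := sub_nonneg.2 (Chebyshev.theta_le_psi x)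
  have hpt' : ψ x - θ x ≤ C' * √x :=
    (hC x).trans (mul_le_mul_of_nonneg_right (hC' ▸ le_max_left _ _) hs.le)
  have e1 : (ψ x - θ x) / x ≤ C' / √x := by
    rw [div_le_div_iff₀ hx0 hs]
    calc (ψ x - θ x) * √x ≤ C' * √x * √x := mul_le_mul_of_nonneg_right hpt' hs.le
      _ = C' * x := by rw [mul_assoc, mul_self_sqrt hx0.le]
  have e2 : (ψ x - θ x) / (x * log x) ≤ C' / √x :=
    (div_le_div_of_nonneg_left hpt hx0 (le_mul_of_one_le_right hx0.le hl)).trans e1
  have e3 : ((θ x - x) / x) ^ 2 ≤ 2 * ((ψ x - x) / x) ^ 2 + 2 * (C' ^ 2 / √x) := by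
    have e : (θ x - x) / x = (ψ x - x) / x - (ψ x - θ x) / x := by ring
    have h2 : ((ψ x - θ x) / x) ^ 2 ≤ C' ^ 2 / √x := by
      refine (pow_le_pow_left₀ (div_nonneg hpt hx0.le) e1 2).trans ?_
      rw [div_pow]
      exact div_le_div_of_nonneg_left (sq_nonneg _) hs (le_self_pow₀ hs1 two_ne_zero)
    rw [e]
    nlinarith [sq_nonneg ((ψ x - x) / x + (ψ x - θ x) / x)]
  have e4 : defect x ≤ 20 * ((ψ x - x) / x) ^ 2 + 20 * (C' ^ 2 / √x) := by
    refine hd.2.trans ((div_le_self (by positivity) hl).trans ?_)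
    linarith
  have e5 := primeSum_sub_powSum_le hx
  have e6 := nic_eq (show 2 ≤ x by linarith)
  have hu : 0 ≤ ((ψ x - x) / x) ^ 2 := sq_nonneg _
  have hsum : (C' + 20 * C' ^ 2 + 26) * (1 / √x + ((ψ x - x) / x) ^ 2) =
      C' / √x + 20 * (C' ^ 2 / √x) + 6 / √x + 20 * ((ψ x - x) / x) ^ 2 + 20 / √x +
        (C' + 20 * C' ^ 2 + 6) * ((ψ x - x) / x) ^ 2 := by ring
  rw [hsum]
  have : 0 ≤ 20 / √x + (C' + 20 * C' ^ 2 + 6) * ((ψ x - x) / x) ^ 2 := by positivity
  linarith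

theorem psi_eq_of_mem {m t : ℝ} (hm : 0 ≤ m) (ht : m ≤ t) (ht' : t < ⌊m⌋₊ + 1) : ψ t = ψ m := by
  rw [Chebyshev.psi, Chebyshev.psi, (Nat.floor_eq_iff (hm.trans ht)).2
    ⟨(Nat.floor_le hm).trans ht, ht'⟩]

theorem inv_sqrt_sub_le {a m : ℝ} (ha : 0 < a) (ham : a ≤ m) (hm : m ≤ 2 * a) :
    1 / √a - 1 / √m ≤ 2 * (m - a) / (m * √m) := by
  have hsa := sqrt_pos.2 ha
  have hsm := sqrt_pos.2 (ha.trans_le ham)
  have hle : √a ≤ √m := sqrt_le_sqrt ham
  have hd : √m - √a ≤ (m - a) / √m := by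
    rw [le_div_iff₀ hsm]
    nlinarith [mul_self_sqrt ha.le, mul_self_sqrt (ha.trans_le ham).le]
  have hlow : √m / 2 ≤ √a := by
    rw [div_le_iff₀ two_pos, sqrt_le_left (by positivity), mul_pow, sq_sqrt ha.le]
    linarith
  rw [div_sub_div _ _ hsa.ne' hsm.ne', one_mul, mul_one,
    div_le_div_iff₀ (by positivity) (by nlinarith)]
  calc (√m - √a) * (m * √m) ≤ (m - a) / √m * (m * √m) :=
        mul_le_mul_of_nonneg_right hd (by nlinarith)
    _ = (m - a) * m := by field_simp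
    _ = (m - a) * (√m * √m) := by rw [mul_self_sqrt (ha.trans_le ham).le]
    _ ≤ (m - a) * (2 * √a * √m) := by gcongr; linarith
    _ = _ := by ring

/-- A maximum from the right forces `m ≤ ψ m`. -/
theorem le_psi_of_right_max {M m c : ℝ} (hM : 0 < M) (hm : 2 ≤ m) (hmc : m < c)
    (h : ∀ t ∈ Set.Icc m c, tailInt t - M / √t ≤ tailInt m - M / √m) : m ≤ ψ m := by
  by_contra hlt
  rw [not_le] at hlt
  obtain ⟨t, ht⟩ : ∃ t, t = (m + min c (⌊m⌋₊ + 1)) / 2 := ⟨_, rfl⟩
  have hfl := Nat.lt_floor_add_one m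
  have h1 : m < t := by
    rw [ht]; linarith [lt_min hmc hfl]
  have h2 : t ≤ c ∧ t < ⌊m⌋₊ + 1 := by
    rw [ht]
    constructor <;> linarith [min_le_left c ((⌊m⌋₊ : ℝ) + 1), min_le_right c ((⌊m⌋₊ : ℝ) + 1)]
  have hint : ∫ u in m..t, (ψ u - u) * wgt u ≤ ∫ _u in m..t, (0 : ℝ) := by
    refine intervalIntegral.integral_mono_on h1.le (intervalIntegrable_tail hm h1.le)
      intervalIntegrable_const fun u hu => ?_
    rw [psi_eq_of_mem (by linarith) hu.1 (hu.2.trans_lt h2.2)]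
    exact mul_nonpos_of_nonpos_of_nonneg (by linarith [hu.1]) (wgt_nonneg (by linarith [hu.1]))
  rw [intervalIntegral.integral_zero, ← tailInt_sub hm h1.le] at hint
  have h3 := h t ⟨h1.le, h2.1⟩
  have h4 : M / √t < M / √m :=
    div_lt_div_of_pos_left hM (sqrt_pos.2 (by linarith)) (sqrt_lt_sqrt (by linarith) h1)
  linarith

/-- A maximum from the left forces `ψ m ≤ m + (2 M + 1) √m log m`. -/
theorem psi_le_of_left_max {M a m : ℝ} (hM : 0 < M) (ha : 2 ≤ a) (ham : a < m) (hm : 4 ≤ m)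
    (h : ∀ t ∈ Set.Icc a m, tailInt t - M / √t ≤ tailInt m - M / √m) :
    ψ m ≤ m + (2 * M + 1) * (√m * log m) := by
  have hl : 0 < log m := log_pos_of_two_le (by linarith)
  have hs : 1 ≤ √m := by rw [← sqrt_one]; exact sqrt_le_sqrt (by linarith)
  obtain ⟨n, hn⟩ : ∃ n, n = ⌈m⌉₊ - 1 := ⟨_, rfl⟩
  have hcm := Nat.ceil_lt_add_one (show 0 ≤ m by linarith)
  have hmc := Nat.le_ceil m
  have hc1 : 1 ≤ ⌈m⌉₊ := Nat.ceil_pos.2 (by linarith)
  have hnm : (n : ℝ) < m ∧ m ≤ n + 1 := by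
    rw [hn, Nat.cast_sub hc1, Nat.cast_one]
    constructor <;> linarith
  obtain ⟨p, hp⟩ : ∃ p, p = ψ n := ⟨_, rfl⟩
  have hψm : ψ m ≤ p + log m := by
    rcases hnm.2.eq_or_lt with heq | hlt
    · have e : ψ m = p + ArithmeticFunction.vonMangoldt (n + 1) := by
        rw [hp, heq, Chebyshev.psi, Chebyshev.psi, Nat.floor_natCast,
          show ((n : ℝ) + 1) = ((n + 1 : ℕ) : ℝ) by push_cast; rfl, Nat.floor_natCast,
          Finset.sum_Ioc_succ_top (Nat.zero_le n)]
      rw [e, heq]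
      have := ArithmeticFunction.vonMangoldt_le_log (n := n + 1)
      push_cast at this
      linarith
    · rw [hp, psi_eq_of_mem (Nat.cast_nonneg n) hnm.1.le (by rw [Nat.floor_natCast]; exact hlt)]
      linarith
  suffices p - m ≤ 2 * M * (√m * log m) by nlinarith
  by_contra hbig
  rw [not_le] at hbig
  obtain ⟨t, ht⟩ : ∃ t, t = max a (max n (m / 2)) := ⟨_, rfl⟩
  have htm : t < m := by
    rw [ht]; exact max_lt ham (max_lt hnm.1 (by linarith))
  have hta : a ≤ t := ht ▸ le_max_left _ _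
  have htn : (n : ℝ) ≤ t := ht ▸ le_trans (le_max_left _ _) (le_max_right _ _)
  have ht2 : m ≤ 2 * t := by
    have : m / 2 ≤ t := ht ▸ le_trans (le_max_right _ _) (le_max_right _ _)
    linarith
  have hint : ∫ _u in t..m, (p - m) * (1 / (m ^ 2 * log m)) ≤
      ∫ u in t..m, (ψ u - u) * wgt u := by
    refine intervalIntegral.integral_mono_on_of_le_Ioo htm.le intervalIntegrable_const
      (intervalIntegrable_tail (ha.trans hta) htm.le) fun u hu => ?_
    have hu2 : 2 ≤ u := by linarith [hu.1]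
    have hlu := log_pos_of_two_le hu2
    have hψu : ψ u = p := by
      rw [hp]
      exact psi_eq_of_mem (Nat.cast_nonneg n) (htn.trans hu.1.le)
        (by rw [Nat.floor_natCast]; linarith [hu.2, hnm.2])
    rw [hψu]
    have hw : 1 / (m ^ 2 * log m) ≤ wgt u := by
      refine le_trans (one_div_le_one_div_of_le (by positivity) (mul_le_mul
        (pow_le_pow_left₀ (by linarith) hu.2.le 2) (log_le_log (by linarith) hu.2.le) hlu.le
        (sq_nonneg m))) ?_
      rw [wgt, div_le_div_iff₀ (by positivity) (by positivity)]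
      calc 1 * (u ^ 2 * log u ^ 2) = log u * (u ^ 2 * log u) := by ring
        _ ≤ (log u + 1) * (u ^ 2 * log u) := by gcongr; linarith
    have hp0 : 0 ≤ p - m := le_trans (by positivity) hbig.le
    exact mul_le_mul (by linarith [hu.2]) hw (by positivity) (by linarith [hu.2])
  rw [intervalIntegral.integral_const, smul_eq_mul, ← tailInt_sub (ha.trans hta) htm.le] at hint
  have h3 := h t ⟨hta, htm.le⟩
  have h4 := mul_le_mul_of_nonneg_left (inv_sqrt_sub_le (by linarith) htm.le ht2) hM.le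
  have h5 : M * (2 * (m - t) / (m * √m)) <
      (m - t) * ((p - m) * (1 / (m ^ 2 * log m))) := by
    have hgap : 0 < m - t := sub_pos.2 htm
    calc M * (2 * (m - t) / (m * √m))
        = (m - t) * (2 * M * (√m * log m) * (1 / (m ^ 2 * log m))) := by
          have hs0 : (0 : ℝ) < √m := by linarith
          field_simp
          rw [sq_sqrt (show 0 ≤ m by linarith)]
      _ < _ := mul_lt_mul_of_pos_left (mul_lt_mul_of_pos_right hbig (by positivity)) hgap
  have h6 : M / √t - M / √m = M * (1 / √t - 1 / √m) := by ring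
  linarith

theorem riemannHypothesis_of_nic_nonpos (h : ∀ᶠ x in atTop, nic x ≤ 0) : RiemannHypothesis := by
  obtain ⟨B, hB, hev⟩ := exists_le_of_nic_nonpos h
  obtain ⟨M, hMd⟩ : ∃ M, M = 2 * B := ⟨_, rfl⟩
  have hM : 0 < M := by linarith
  have hlog : ∀ᶠ x in atTop, (2 * M + 1) ^ 2 * log x ^ 2 ≤ √x := by
    have h' := (isLittleO_log_rpow_rpow_atTop 2 (show (0 : ℝ) < 1 / 2 by norm_num)).def
      (show 0 < 1 / (2 * M + 1) ^ 2 by positivity)
    filter_upwards [h', eventually_ge_atTop (1 : ℝ)] with x hx hx1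
    rw [norm_of_nonneg (rpow_nonneg (log_nonneg hx1) _), rpow_two,
      norm_of_nonneg (rpow_nonneg (by linarith) _), ← sqrt_eq_rpow, one_div_mul_eq_div,
      le_div_iff₀ (by positivity)] at hx
    linarith
  obtain ⟨X, hX⟩ := eventually_atTop.1 (hev.and hlog)
  obtain ⟨X₀, hX₀⟩ : ∃ X₀, X₀ = max X 4 := ⟨_, rfl⟩
  have hX4 : 4 ≤ X₀ := hX₀ ▸ le_max_right _ _
  obtain ⟨K, hK⟩ : ∃ K : ℝ → ℝ, K = fun t => tailInt t - M / √t := ⟨_, rfl⟩
  have hKc : ContinuousOn K (Set.Ici 2) := by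
    rw [hK]
    exact continuousOn_tailInt.sub (continuousOn_const.div continuous_sqrt.continuousOn
      fun t ht => (sqrt_pos.2 (lt_of_lt_of_le two_pos ht)).ne')
  have hKlim : Tendsto K atTop (𝓝 0) := by
    rw [hK]
    simpa using tendsto_tailInt.sub (tendsto_sqrt_atTop.const_div_atTop M)
  -- no positive interior maximum
  have claim : ∀ a m c, X₀ ≤ a → a < m → m < c →
      (∀ t ∈ Set.Icc a c, K t ≤ K m) → K m ≤ 0 := by
    intro a m c ha ham hmc hmax
    simp only [hK] at hmax ⊢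
    have h1 := le_psi_of_right_max hM (by linarith) hmc fun t ht => hmax t ⟨ham.le.trans ht.1, ht.2⟩
    have h2 := psi_le_of_left_max hM (by linarith) ham (by linarith)
      fun t ht => hmax t ⟨ht.1, ht.2.trans hmc.le⟩
    obtain ⟨hJ, hl⟩ := hX m (le_trans (hX₀ ▸ le_max_left X 4) (by linarith))
    have hm0 : 0 < m := by linarith
    have hs := sqrt_pos.2 hm0
    have hsq : ((ψ m - m) / m) ^ 2 ≤ 1 / √m := by
      rw [div_pow, div_le_div_iff₀ (by positivity) hs]
      calc (ψ m - m) ^ 2 * √m ≤ ((2 * M + 1) * (√m * log m)) ^ 2 * √m := by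
            gcongr; linarith
        _ = (2 * M + 1) ^ 2 * log m ^ 2 * (√m ^ 2 * √m) := by ring
        _ ≤ √m * (√m ^ 2 * √m) := mul_le_mul_of_nonneg_right hl (by positivity)
        _ = 1 * m ^ 2 := by
            rw [show √m * (√m ^ 2 * √m) = (√m ^ 2) * (√m ^ 2) by ring, sq_sqrt hm0.le]
            ring
    rw [sub_nonpos, hMd]
    calc tailInt m ≤ B * (1 / √m + ((ψ m - m) / m) ^ 2) := hJ
      _ ≤ B * (1 / √m + 1 / √m) := by gcongr
      _ = _ := by ring
  by_cases hcase : ∃ x₁, X₀ ≤ x₁ ∧ K x₁ ≤ 0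
  · obtain ⟨x₁, hx₁, hK₁⟩ := hcase
    refine riemannHypothesis_of_bound (A := x₁) (C := M) (e := 1) (by linarith) one_ne_zero
      fun y hy => ?_
    have hy' : x₁ < y := hy
    have hgoal : K y ≤ 0 := by
      by_contra hpos
      rw [not_le] at hpos
      obtain ⟨Y, hY1, hY2⟩ := ((hKlim.eventually (eventually_lt_nhds hpos)).and
        (eventually_gt_atTop y)).exists
      obtain ⟨m, hm, hmax⟩ := isCompact_Icc.exists_isMaxOn
        (Set.nonempty_Icc.2 (hy'.le.trans hY2.le))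
        (hKc.mono fun t (ht : t ∈ Set.Icc x₁ Y) => Set.mem_Ici.2 (by linarith [ht.1]))
      have hy2 : K y ≤ K m := hmax ⟨hy'.le, hY2.le⟩
      have hm1 : x₁ < m := hm.1.lt_of_ne fun h' => by rw [← h'] at hy2; linarith
      have hm2 : m < Y := hm.2.lt_of_ne fun h' => by rw [h'] at hy2; linarith
      linarith [claim x₁ m Y hx₁ hm1 hm2 fun t ht => hmax ht]
    simp only [hK] at hgoal
    rw [one_mul, rpow_neg (by linarith), ← sqrt_eq_rpow, ← div_eq_mul_inv]
    linarith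
  · exfalso
    simp only [not_exists, not_and, not_le] at hcase
    obtain ⟨x, hx, hpsi⟩ := frequently_atTop.1 PsiOscillation.frequently_psi_lt X₀
    refine absurd (le_psi_of_right_max hM (show 2 ≤ x by linarith) (lt_add_one x) fun t ht => ?_)
      (not_le.2 hpsi)
    have hanti : K t ≤ K x := by
      by_contra hlt
      rw [not_le] at hlt
      have hxt : x < t := ht.1.lt_of_ne fun h' => by rw [h'] at hlt; exact lt_irrefl _ hlt
      have htpos : 0 < K t := hcase t (by linarith)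
      obtain ⟨Y, hY1, hY2⟩ := ((hKlim.eventually (eventually_lt_nhds htpos)).and
        (eventually_gt_atTop t)).exists
      obtain ⟨m, hm, hmax⟩ := isCompact_Icc.exists_isMaxOn
        (Set.nonempty_Icc.2 (hxt.le.trans hY2.le))
        (hKc.mono fun u (hu : u ∈ Set.Icc x Y) => Set.mem_Ici.2 (by linarith [hu.1]))
      have ht2 : K t ≤ K m := hmax ⟨hxt.le, hY2.le⟩
      have hm1 : x < m := hm.1.lt_of_ne fun h' => by rw [← h'] at ht2; linarith
      have hm2 : m < Y := hm.2.lt_of_ne fun h' => by rw [h'] at ht2; linarith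
      linarith [claim x m Y hx hm1 hm2 fun u hu => hmax hu]
    simpa only [hK] using hanti

theorem riemannHypothesis_of_nic_nonneg (h : ∀ᶠ x in atTop, 0 ≤ nic x) : RiemannHypothesis := by
  obtain ⟨X, hX⟩ := eventually_atTop.1 (h.and eventually_nic_le)
  refine riemannHypothesis_of_bound (A := max X 2) (C := 0) (e := -1) (le_max_right _ _)
    (by norm_num) fun t ht => ?_
  have htX : X ≤ t := (le_max_left X 2).trans ht.out.le
  have ht2 : 2 ≤ t := (le_max_right X 2).trans ht.out.le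
  obtain ⟨h1, h2⟩ := hX t htX
  have h3 : 0 ≤ (ψ t - θ t) / (t * log t) := div_nonneg (sub_nonneg.2 (Chebyshev.theta_le_psi t))
    (mul_nonneg (by linarith) (log_nonneg (by linarith)))
  linarith [zero_mul (t ^ (-(1 / 2) : ℝ))]

/-- **Unconditional**: `nic` is negative at arbitrarily large arguments. -/
theorem frequently_nic_neg : ∃ᶠ x in atTop, nic x < 0 := by
  intro h
  have h' : ∀ᶠ x in atTop, 0 ≤ nic x := h.mono fun x hx => not_lt.1 hx
  obtain ⟨x, hx, hx'⟩ :=
    ((eventually_nic_neg (riemannHypothesis_of_nic_nonneg h')).and h').exists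
  linarith

/-! ### Primorials -/

theorem primesUpTo_eq_image (n : ℕ) :
    primesUpTo n = (range (Nat.count Nat.Prime (n + 1))).image (Nat.nth Nat.Prime) := by
  ext q
  simp only [mem_primesUpTo, mem_image, mem_range]
  refine ⟨fun ⟨hq, hqn⟩ => ⟨Nat.count Nat.Prime q, ?_, Nat.nth_count hq⟩, ?_⟩
  · exact Nat.count_strict_mono hq (Nat.lt_succ_of_le hqn)
  · rintro ⟨i, hi, rfl⟩
    exact ⟨Nat.prime_nth_prime i, Nat.lt_succ_iff.1 (Nat.nth_lt_of_lt_count hi)⟩

theorem primorialNth_count (n : ℕ) :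
    primorialNth (Nat.count Nat.Prime (n + 1)) = ∏ p ∈ primesUpTo n, p := by
  rw [primesUpTo_eq_image, primorialNth,
    Finset.prod_image fun i _ j _ h => Nat.nth_injective Nat.infinite_setOfPred_prime h]

theorem nic_neg_iff (x : ℝ) (hθ : 1 < θ x) :
    (nic x < 0 ↔ Real.exp eulerMascheroniConstant *
        log (log (primorialNth (Nat.count Nat.Prime (⌊x⌋₊ + 1)))) <
      primorialNth (Nat.count Nat.Prime (⌊x⌋₊ + 1)) /
        (Nat.totient (primorialNth (Nat.count Nat.Prime (⌊x⌋₊ + 1))) : ℝ)) ∧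
    (0 < nic x ↔ (primorialNth (Nat.count Nat.Prime (⌊x⌋₊ + 1)) : ℝ) /
        Nat.totient (primorialNth (Nat.count Nat.Prime (⌊x⌋₊ + 1))) <
      Real.exp eulerMascheroniConstant *
        log (log (primorialNth (Nat.count Nat.Prime (⌊x⌋₊ + 1))))) := by
  rw [primorialNth_count]
  obtain ⟨N, hN⟩ : ∃ N, N = ∏ p ∈ primesUpTo ⌊x⌋₊, p := ⟨_, rfl⟩
  rw [← hN]
  have hpr : ∀ p ∈ primesUpTo ⌊x⌋₊, p.Prime := fun p hp => (mem_primesUpTo.1 hp).1
  have hN0 : (0 : ℝ) < N := by
    rw [hN, Nat.cast_pos]; exact Finset.prod_pos fun p hp => (hpr p hp).pos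
  have hlogN : log (N : ℝ) = θ x := by
    rw [hN, Nat.cast_prod, log_prod fun p hp => Nat.cast_ne_zero.2 (hpr p hp).ne_zero,
      Chebyshev.theta]
    refine Finset.sum_congr ?_ fun _ _ => rfl
    ext p
    simp only [mem_primesUpTo, Finset.mem_filter, Finset.mem_Ioc]
    exact ⟨fun h => ⟨⟨h.1.pos, h.2⟩, h.1⟩, fun h => ⟨h.2, h.1.2⟩⟩
  have hpos : ∀ p ∈ primesUpTo ⌊x⌋₊, (0 : ℝ) < 1 - (p : ℝ)⁻¹ := fun p hp =>
    sub_pos.2 (inv_lt_one_of_one_lt₀ (Nat.one_lt_cast.2 (hpr p hp).one_lt))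
  have hratio : (N : ℝ) / N.totient = Real.exp (primeSum x) := by
    rw [FA.MertensThird.totient_eq_prod, hN, Nat.primeFactors_prod hpr, ← hN, primeSum,
      Finset.sum_neg_distrib, ← log_prod fun p hp => (hpos p hp).ne', Real.exp_neg,
      exp_log (prod_pos hpos)]
    field_simp
  have hlθ : 0 < log (θ x) := log_pos hθ
  rw [hlogN, hratio, ← exp_log hlθ, ← Real.exp_add, exp_lt_exp, exp_lt_exp, nic]
  constructor <;> constructor <;> intro h <;> linarith

theorem eventually_one_lt_theta : ∀ᶠ x in atTop, 1 < θ x := by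
  filter_upwards [Metric.tendsto_nhds.1 tendsto_theta_sub_div (1 / 2) (by norm_num),
    eventually_ge_atTop (4 : ℝ)] with x hx hx4
  rw [dist_eq_norm, sub_zero, norm_eq_abs, abs_lt, lt_div_iff₀ (by linarith)] at hx
  linarith [hx.1]

theorem tendsto_count_floor :
    Tendsto (fun x : ℝ => Nat.count Nat.Prime (⌊x⌋₊ + 1)) atTop atTop := by
  refine tendsto_atTop_atTop.2 fun k => ⟨Nat.nth Nat.Prime k, fun x hx => ?_⟩
  have h1 : Nat.count Nat.Prime (Nat.nth Nat.Prime k + 1) ≤ Nat.count Nat.Prime (⌊x⌋₊ + 1) :=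
    Nat.count_monotone _ (Nat.succ_le_succ (Nat.le_floor hx))
  rw [Nat.count_nth_succ_of_infinite Nat.infinite_setOfPred_prime] at h1
  omega

/-- From arguments to primorials. -/
theorem eventually_iff_primorial (P : ℕ → Prop) :
    (∀ᶠ x : ℝ in atTop, P (Nat.count Nat.Prime (⌊x⌋₊ + 1))) ↔ ∀ᶠ k in atTop, P k := by
  refine ⟨fun h => ?_, fun h => tendsto_count_floor.eventually h⟩
  obtain ⟨X, hX⟩ := eventually_atTop.1 h
  refine eventually_atTop.2 ⟨⌈X⌉₊ + 1, fun k hk => ?_⟩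
  obtain ⟨j, rfl⟩ : ∃ j, k = j + 1 := ⟨k - 1, by omega⟩
  have hle : X ≤ (Nat.nth Nat.Prime j : ℕ) := (Nat.le_ceil X).trans (Nat.cast_le.2
    (le_trans (show ⌈X⌉₊ ≤ j by omega) ((Nat.nth_strictMono Nat.infinite_setOfPred_prime).id_le j)))
  have := hX _ hle
  rwa [Nat.floor_natCast, Nat.count_nth_succ_of_infinite Nat.infinite_setOfPred_prime] at this

end FA.Nicolas
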