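import Fermat.Agent.Nicolas.Basic
import Fermat.Agent.ExplicitFormula.Psi
import Fermat.Agent.LiCriterion.Partial
import Fermat.Agent.NymanBeurling.Growth

/-!
# Nicolas's inequality under the Riemann hypothesis

The explicit formula gives `|ψ₁ t - t²/2| ≤ (41/500) t ^ (3/2)` for large `t`, as
`∑ 1 / |ρ|² = 2 + γ - log (4 π) ≤ 81/1000`; by parts `|tailInt x| ≤ (21/50) / (√x log x)`, while
`ψ x - θ x ≥ θ √x`.
-/

set_option autoImplicit false

noncomputable section

open MeasureTheory Filter Real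
open FA.ZeroFree (psiOne)
open FA.RiemannMangoldt (xiFn)
open FA.ExplicitFormula (zeroTerm zeroWeight)
open scoped Topology Chebyshev

namespace FA.Nicolas

theorem sum_bound_lt :
    2 + eulerMascheroniConstant - log (4 * π) ≤ 81 / 1000 := by
  have h2 := Real.log_two_gt_d9
  have h1 : eulerMascheroniConstant ≤ 61 / 100 := by
    have h := (Real.eulerMascheroniConstant_lt_eulerMascheroniSeq' 16).le
    rw [eulerMascheroniSeq', if_neg (by norm_num), show ((16 : ℕ) : ℝ) = 2 ^ 4 by norm_num,
      log_pow] at h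
    have hh : ((harmonic 16 : ℚ) : ℝ) ≤ 338073 / 100000 := by
      have hq : harmonic 16 ≤ 338073 / 100000 := by
        norm_num [harmonic, Finset.sum_range_succ]
      have := (Rat.cast_le (K := ℝ)).2 hq
      push_cast at this
      exact this
    push_cast at h
    linarith
  have h3 : 73 / 20 * log 2 ≤ log (4 * π) := by
    have h := log_le_log (by positivity : (0 : ℝ) < 2 ^ 73)
      (show (2 : ℝ) ^ 73 ≤ (4 * π) ^ 20 by
        refine le_trans ?_ (pow_le_pow_left₀ (by norm_num : (0 : ℝ) ≤ 1256 / 100)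
          (by linarith [pi_gt_d2]) 20)
        norm_num)
    rw [log_pow, log_pow] at h
    push_cast at h
    linarith
  linarith

theorem norm_zero_sum_le (hRH : RiemannHypothesis) {t : ℝ} (ht : 0 < t) :
    ‖∑' ρ, zeroTerm t ρ‖ ≤ 81 / 1000 * (t * √t) := by
  refine (norm_tsum_le_tsum_norm (FA.ExplicitFormula.summable_norm_zeroTerm ht)).trans ?_
  have hsum := (FA.LiCriterion.hasSum_re_inv.mul_left (2 * (t * √t)))
  refine ((FA.ExplicitFormula.summable_norm_zeroTerm ht).tsum_le_tsum (fun ρ => ?_)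
    hsum.summable).trans (hsum.tsum_eq.le.trans ?_)
  · by_cases hρ : xiFn ρ = 0
    · have hre := FA.NymanBeurling.zeros_on_line hRH hρ
      have hn : 0 < ‖ρ‖ := by
        refine norm_pos_iff.2 fun h => ?_
        rw [h, Complex.zero_re] at hre
        norm_num at hre
      have hle : ‖ρ‖ ≤ ‖ρ + 1‖ := by
        refine le_of_pow_le_pow_left₀ two_ne_zero (norm_nonneg _) ?_
        rw [← Complex.normSq_eq_norm_sq, ← Complex.normSq_eq_norm_sq, Complex.normSq_apply,
          Complex.normSq_apply]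
        simp only [Complex.add_re, Complex.add_im, Complex.one_re, Complex.one_im]
        nlinarith
      rw [zeroTerm, norm_mul, norm_div, Complex.norm_natCast,
        Complex.norm_cpow_eq_rpow_re_of_pos ht, Complex.add_re, Complex.one_re, hre, norm_mul,
        rpow_add ht, rpow_one, ← sqrt_eq_rpow, Complex.inv_re, hre, Complex.normSq_eq_norm_sq]
      calc (zeroWeight ρ : ℝ) * (√t * t / (‖ρ‖ * ‖ρ + 1‖))
          ≤ zeroWeight ρ * (√t * t / (‖ρ‖ * ‖ρ‖)) := by gcongr
        _ = _ := by rw [sq]; field_simp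
    · simp [FA.ExplicitFormula.zeroTerm_eq_zero t hρ,
        FA.ExplicitFormula.zeroWeight_eq_zero hρ]
  · calc 2 * (t * √t) * (1 + eulerMascheroniConstant / 2 - log (4 * π) / 2)
        = (2 + eulerMascheroniConstant - log (4 * π)) * (t * √t) := by ring
      _ ≤ _ := mul_le_mul_of_nonneg_right sum_bound_lt (by positivity)

theorem eventually_psiOne_bound (hRH : RiemannHypothesis) :
    ∀ᶠ t in atTop, |psiOne t - t ^ 2 / 2| ≤ 41 / 500 * (t * √t) := by
  obtain ⟨C, hC, h⟩ := FA.ExplicitFormula.exists_explicit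
  obtain ⟨q, hq⟩ : ∃ q, q = deriv riemannZeta 0 / riemannZeta 0 := ⟨_, rfl⟩
  filter_upwards [tendsto_sqrt_atTop.eventually_ge_atTop (1000 * (C + ‖q‖)),
    eventually_ge_atTop (1 : ℝ)] with t hbig ht
  have ht0 : 0 < t := by linarith
  have h' := h t ht0
  rw [← hq] at h'
  obtain ⟨D, hD⟩ : ∃ D : ℂ, D = (psiOne t : ℂ) - ((t : ℂ) ^ 2 / 2 - ∑' ρ, zeroTerm t ρ -
      (t : ℂ) * q) := ⟨_, rfl⟩
  rw [← hD] at h'
  have e : ((psiOne t - t ^ 2 / 2 : ℝ) : ℂ) = D - ∑' ρ, zeroTerm t ρ - (t : ℂ) * q := by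
    rw [hD]
    push_cast
    ring
  rw [← norm_eq_abs, ← Complex.norm_real, e]
  refine (norm_sub_le _ _).trans ((add_le_add (norm_sub_le _ _) le_rfl).trans ?_)
  rw [norm_mul, Complex.norm_real, norm_of_nonneg ht0.le]
  have hs : √t ≤ t := Real.sqrt_le_iff.2 ⟨ht0.le, by nlinarith⟩
  have h1 : C * √t + t * ‖q‖ ≤ t * (C + ‖q‖) := by nlinarith
  have h2 : t * (C + ‖q‖) ≤ t * (√t / 1000) :=
    mul_le_mul_of_nonneg_left (by linarith) ht0.le
  linarith [norm_zero_sum_le hRH ht0, mul_pos ht0 (sqrt_pos.2 ht0)]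

theorem hasDerivAt_psiOne {t : ℝ} (h0 : 0 < t) (ht : t ∉ Set.range (Nat.cast : ℕ → ℝ)) :
    HasDerivAt psiOne (ψ t) t := by
  obtain ⟨N, hN⟩ : ∃ N, N = ⌊t⌋₊ := ⟨_, rfl⟩
  have hlt : (N : ℝ) < t := lt_of_le_of_ne (hN ▸ Nat.floor_le h0.le) fun h => ht ⟨N, h⟩
  have hlt2 : t < (N : ℝ) + 1 := hN ▸ Nat.lt_floor_add_one t
  have he : psiOne =ᶠ[𝓝 t] fun y => ∑ n ∈ Finset.Icc 1 N,
      ArithmeticFunction.vonMangoldt n * (y - n) := by
    filter_upwards [Ioo_mem_nhds hlt hlt2] with y hy
    have hy0 : 0 ≤ y := le_trans (Nat.cast_nonneg N) hy.1.le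
    rw [psiOne, (Nat.floor_eq_iff hy0).2 ⟨hy.1.le, hy.2⟩]
  refine HasDerivAt.congr_of_eventuallyEq ?_ he
  have h := HasDerivAt.fun_sum (u := Finset.Icc 1 N) fun (n : ℕ) _ =>
    ((hasDerivAt_id' t).sub_const (n : ℝ)).const_mul (ArithmeticFunction.vonMangoldt n)
  refine h.congr_deriv ?_
  rw [Chebyshev.psi, ← hN]
  exact Finset.sum_congr (by ext k; simp; omega) fun n _ => mul_one _

theorem continuousOn_psiOne : ContinuousOn psiOne (Set.Ici 0) := by
  intro x hx
  have hL : LipschitzOnWith (ψ (x + 1)).toNNReal psiOne (Set.Icc 0 (x + 1)) := by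
    refine LipschitzOnWith.of_le_add_mul _ fun a ha b hb => ?_
    rw [dist_eq_norm, norm_eq_abs, coe_toNNReal _ (Chebyshev.psi_nonneg _)]
    have hb' := Chebyshev.psi_mono hb.2
    have ha' := Chebyshev.psi_mono ha.2
    have hnn := Chebyshev.psi_nonneg
    rcases le_total a b with h | h
    · have := (FA.ZeroFree.psiOne_sub_bounds ha.1 h).1
      nlinarith [mul_nonneg (sub_nonneg.2 h) (hnn a), mul_nonneg (hnn (x + 1)) (abs_nonneg (a - b))]
    · have := (FA.ZeroFree.psiOne_sub_bounds hb.1 h).2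
      rw [abs_of_nonneg (sub_nonneg.2 h)]
      nlinarith [mul_le_mul_of_nonneg_left ha' (sub_nonneg.2 h)]
  exact (hL.continuousOn x ⟨hx, by linarith⟩).mono_of_mem_nhdsWithin
    (mem_nhdsWithin.2 ⟨Set.Iio (x + 1), isOpen_Iio, by simp,
      fun y hy => ⟨hy.2, le_of_lt hy.1⟩⟩)

/-- The derivative of `wgt`, up to sign. -/
def wgt' (t : ℝ) : ℝ := (2 * log t ^ 2 + 3 * log t + 2) / (t ^ 3 * log t ^ 3)

theorem hasDerivAt_wgt {t : ℝ} (ht : 1 < t) : HasDerivAt wgt (-wgt' t) t := by
  have hl := log_pos ht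
  have ht0 : 0 < t := by linarith
  have h := ((hasDerivAt_log ht0.ne').add_const 1).fun_div
    (((hasDerivAt_pow 2 t)).fun_mul ((hasDerivAt_log ht0.ne').fun_pow 2))
    (mul_ne_zero (pow_ne_zero 2 ht0.ne') (pow_ne_zero 2 hl.ne'))
  unfold wgt
  refine h.congr_deriv ?_
  rw [wgt']
  simp only [Nat.cast_ofNat]
  field_simp
  ring

theorem eventually_theta_sqrt_ge : ∀ᶠ x in atTop, 19 / 20 * √x ≤ θ (√x) := by
  filter_upwards [tendsto_sqrt_atTop.eventually
    (Metric.tendsto_nhds.1 tendsto_theta_sub_div (1 / 20) (by norm_num)),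
    tendsto_sqrt_atTop.eventually_gt_atTop 0] with x hx hs
  rw [dist_eq_norm, sub_zero, norm_eq_abs, abs_lt, lt_div_iff₀ hs] at hx
  linarith [hx.1]

theorem eventually_abs_tailInt_le (hRH : RiemannHypothesis) :
    ∀ᶠ x in atTop, |tailInt x| ≤ 21 / 50 / (√x * log x) := by
  obtain ⟨X, hX⟩ := eventually_atTop.1 ((eventually_psiOne_bound hRH).and
    (tendsto_log_atTop.eventually_ge_atTop 100))
  filter_upwards [eventually_ge_atTop X, eventually_ge_atTop (2 : ℝ)] with x hxX hx2
  have hx0 : 0 < x := by linarith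
  have hl := (hX x hxX).2
  obtain ⟨L, hLd⟩ : ∃ L, L = log x := ⟨_, rfl⟩
  rw [← hLd]
  have hL0 : 0 < L := hLd ▸ log_pos_of_two_le hx2
  obtain ⟨P, hP⟩ : ∃ P : ℝ → ℝ, P = fun t => psiOne t - t ^ 2 / 2 := ⟨_, rfl⟩
  have hPb : ∀ t, x ≤ t → |P t| ≤ 41 / 500 * (t * √t) := fun t ht => by
    rw [hP]; exact (hX t (hxX.trans ht)).1
  have hwb : ∀ t, x ≤ t → wgt t ≤ 101 / 100 / (t ^ 2 * L) ∧
      wgt' t ≤ 204 / 100 / (t ^ 3 * L) ∧ 0 ≤ wgt' t := fun t ht => by
    have ht0 : 0 < t := hx0.trans_le ht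
    have hlt := (hX t (hxX.trans ht)).2
    have hLt : L ≤ log t := hLd ▸ log_le_log hx0 ht
    refine ⟨le_trans ?_ (div_le_div_of_nonneg_left (by norm_num) (by positivity)
      (mul_le_mul_of_nonneg_left hLt (by positivity))), le_trans ?_
      (div_le_div_of_nonneg_left (by norm_num) (by positivity)
      (mul_le_mul_of_nonneg_left hLt (by positivity))), by rw [wgt']; positivity⟩
    · rw [wgt, div_le_div_iff₀ (by positivity) (by positivity)]
      calc (log t + 1) * (t ^ 2 * log t) ≤ (101 / 100 * log t) * (t ^ 2 * log t) := by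
            gcongr; linarith
        _ = _ := by ring
    · rw [wgt', div_le_div_iff₀ (by positivity) (by positivity)]
      calc (2 * log t ^ 2 + 3 * log t + 2) * (t ^ 3 * log t)
          ≤ (204 / 100 * log t ^ 2) * (t ^ 3 * log t) := by gcongr; nlinarith
        _ = _ := by ring
  have hPw : ∀ t, x ≤ t → |P t * wgt t| ≤ 83 / 1000 / (√t * L) := fun t ht => by
    have ht0 : 0 < t := hx0.trans_le ht
    rw [abs_mul, abs_of_nonneg (wgt_nonneg (by linarith))]
    refine (mul_le_mul (hPb t ht) (hwb t ht).1 (wgt_nonneg (by linarith))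
      (by positivity)).trans ?_
    have hs := sqrt_pos.2 ht0
    have e : t * √t / t ^ 2 = 1 / √t := by
      field_simp
      rw [sq_sqrt ht0.le]
    calc 41 / 500 * (t * √t) * (101 / 100 / (t ^ 2 * L))
        = 4141 / 50000 * (t * √t / t ^ 2) / L := by field_simp; ring
      _ = 4141 / 50000 / (√t * L) := by rw [e]; field_simp
      _ ≤ _ := div_le_div_of_nonneg_right (by norm_num) (by positivity)
  have hkey : ∀ y, x ≤ y → |∫ t in x..y, (ψ t - t) * wgt t| ≤
      83 / 1000 / (√y * L) + 83 / 1000 / (√x * L) + 168 / 500 / (√x * L) := by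
    intro y hy
    have hcP : ContinuousOn P (Set.Icc x y) := by
      rw [hP]
      exact (continuousOn_psiOne.mono fun t ht => le_trans hx0.le ht.1).sub
        (by fun_prop)
    have hsub : Set.Icc x y ⊆ Set.Ioi 1 := fun t ht =>
      Set.mem_Ioi.2 (by linarith [ht.1])
    have hcw' : ContinuousOn wgt' (Set.Icc x y) := by
      have hlog : ContinuousOn log (Set.Icc x y) :=
        continuousOn_log.mono fun t ht => (zero_lt_one.trans (hsub ht).out).ne'
      unfold wgt'
      refine ContinuousOn.div (by fun_prop) (by fun_prop) fun t ht => ?_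
      have := log_pos (hsub ht).out
      have : 0 < t := by linarith [(hsub ht).out]
      positivity
    have hi1 : IntervalIntegrable (fun t => P t * wgt' t) volume x y :=
      (hcP.mul hcw').intervalIntegrable_of_Icc hy
    have hi := (intervalIntegrable_tail hx2 hy).sub hi1
    have hftc := integral_eq_of_hasDerivAt_off_countable_of_le (fun t => P t * wgt t)
      (fun t => (ψ t - t) * wgt t - P t * wgt' t) hy
      (Set.countable_range (Nat.cast : ℕ → ℝ)) (hcP.mul (continuousOn_wgt.mono hsub))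
      (fun t ht => by
        have h0 : 0 < t := hx0.trans ht.1.1
        have hd : HasDerivAt P (ψ t - t) t := by
          rw [hP]
          exact ((hasDerivAt_psiOne h0 ht.2).sub
            ((hasDerivAt_pow 2 t).div_const 2)).congr_deriv (by push_cast; ring)
        exact (hd.mul (hasDerivAt_wgt (by linarith [ht.1.1]))).congr_deriv (by ring)) hi
    rw [intervalIntegral.integral_sub (intervalIntegrable_tail hx2 hy) hi1] at hftc
    have hrest : |∫ t in x..y, P t * wgt' t| ≤ 168 / 500 / (√x * L) := by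
      have hr : IntervalIntegrable (fun t => 168 / 1000 / L * t ^ (-(3 / 2) : ℝ)) volume x y := by
        refine (intervalIntegral.intervalIntegrable_rpow (Or.inr ?_)).const_mul _
        rw [Set.uIcc_of_le hy]
        exact fun h => absurd h.1 (not_le.2 hx0)
      rw [← norm_eq_abs]
      refine (intervalIntegral.norm_integral_le_of_norm_le hy
        (Eventually.of_forall fun t ht => ?_) hr).trans ?_
      · have ht0 : 0 < t := hx0.trans ht.1
        obtain ⟨-, h2, h3⟩ := hwb t ht.1.le
        have e : t * √t / t ^ 3 = t ^ (-(3 / 2) : ℝ) := by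
          rw [sqrt_eq_rpow, ← rpow_one_add' ht0.le (by norm_num), ← rpow_natCast,
            ← rpow_sub ht0]
          norm_num
        rw [norm_eq_abs, abs_mul, abs_of_nonneg h3]
        calc |P t| * wgt' t ≤ 41 / 500 * (t * √t) * (204 / 100 / (t ^ 3 * L)) :=
              mul_le_mul (hPb t ht.1.le) h2 h3 (by positivity)
          _ = 8364 / 50000 / L * (t * √t / t ^ 3) := by field_simp; ring
          _ ≤ _ := by
              rw [e]
              exact mul_le_mul_of_nonneg_right (div_le_div_of_nonneg_right (by norm_num) hL0.le)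
                (rpow_nonneg ht0.le _)
      · rw [intervalIntegral.integral_const_mul, integral_rpow (Or.inr ⟨by norm_num, by
          rw [Set.uIcc_of_le hy]; exact fun h => absurd h.1 (not_le.2 hx0)⟩)]
        rw [show (-(3 / 2) : ℝ) + 1 = -(1 / 2) by norm_num, rpow_neg hx0.le,
          ← sqrt_eq_rpow]
        have hy0 : 0 ≤ y ^ (-(1 / 2) : ℝ) := rpow_nonneg (by linarith) _
        have hs := sqrt_pos.2 hx0
        rw [show (y ^ (-(1 / 2) : ℝ) - (√x)⁻¹) / -(1 / 2) = 2 * (√x)⁻¹ - 2 * y ^ (-(1 / 2) : ℝ)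
          by ring]
        calc 168 / 1000 / L * (2 * (√x)⁻¹ - 2 * y ^ (-(1 / 2) : ℝ))
            ≤ 168 / 1000 / L * (2 * (√x)⁻¹) :=
              mul_le_mul_of_nonneg_left (by linarith) (by positivity)
          _ = _ := by field_simp; ring
    rw [show (∫ t in x..y, (ψ t - t) * wgt t) =
      P y * wgt y - P x * wgt x + ∫ t in x..y, P t * wgt' t by linarith [hftc]]
    refine ((abs_add_le _ _).trans (add_le_add (abs_sub _ _) hrest)).trans ?_
    linarith [hPw y hy, hPw x le_rfl]
  have hlim : Tendsto (fun y => 83 / 1000 / (√y * L) + 83 / 1000 / (√x * L) +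
      168 / 500 / (√x * L)) atTop (𝓝 (419 / 1000 / (√x * L))) := by
    have h1 : Tendsto (fun y => √y * L) atTop atTop :=
      tendsto_sqrt_atTop.atTop_mul_const hL0
    have := ((h1.const_div_atTop (83 / 1000)).add_const (83 / 1000 / (√x * L))).add_const
      (168 / 500 / (√x * L))
    rw [zero_add, ← add_div] at this
    refine this.trans (le_of_eq ?_)
    norm_num
  refine le_trans ?_ (div_le_div_of_nonneg_right (by norm_num : (419 : ℝ) / 1000 ≤ 21 / 50)
    (by positivity))
  exact le_of_tendsto_of_tendsto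
    (intervalIntegral_tendsto_integral_Ioi x (integrableOn_tail hx2) tendsto_id).abs hlim
    ((eventually_ge_atTop x).mono fun y hy => hkey y hy)

/-- **Nicolas's inequality for large arguments under the Riemann hypothesis.** -/
theorem eventually_nic_neg (hRH : RiemannHypothesis) : ∀ᶠ x in atTop, nic x < 0 := by
  filter_upwards [eventually_nic_le, eventually_abs_tailInt_le hRH, eventually_theta_sqrt_ge,
    eventually_ge_atTop (4 : ℝ)] with x h1 h2 h3 hx
  have hl := log_pos_of_two_le (show 2 ≤ x by linarith)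
  have hs : 0 < √x := sqrt_pos.2 (by linarith)
  have h4 : θ (√x) ≤ ψ x - θ x := by
    rw [Chebyshev.psi_eq_theta_add_sum_theta (show 2 ≤ x by linarith), add_sub_cancel_left]
    have h2m : 2 ∈ Finset.Icc 2 ⌊log x / log 2⌋₊ := by
      refine Finset.mem_Icc.2 ⟨le_rfl, Nat.le_floor ?_⟩
      rw [le_div_iff₀ (log_pos one_lt_two)]
      push_cast
      rw [← Nat.cast_ofNat (R := ℝ), ← log_pow]
      exact log_le_log (by norm_num) (by norm_num; linarith)
    refine le_of_eq_of_le ?_ (Finset.single_le_sum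
      (f := fun n : ℕ => θ (x ^ ((1 : ℝ) / n))) (fun n _ => Chebyshev.theta_nonneg _) h2m)
    rw [sqrt_eq_rpow]
    norm_num
  have h5 : 19 / 20 / (√x * log x) ≤ (ψ x - θ x) / (x * log x) := by
    rw [div_le_div_iff₀ (by positivity) (by positivity)]
    calc 19 / 20 * (x * log x) = 19 / 20 * √x * (√x * log x) := by
          rw [show 19 / 20 * √x * (√x * log x) = 19 / 20 * (√x * √x) * log x by ring,
            mul_self_sqrt (by linarith)]
          ring
      _ ≤ (ψ x - θ x) * (√x * log x) :=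
          mul_le_mul_of_nonneg_right (h3.trans h4) (by positivity)
  have h6 : 21 / 50 / (√x * log x) < 19 / 20 / (√x * log x) :=
    div_lt_div_of_pos_right (by norm_num) (by positivity)
  linarith [le_abs_self (tailInt x)]

end FA.Nicolas
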