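import Mathlib.Analysis.Complex.Positivity
import Mathlib.Analysis.Calculus.ParametricIntegral
import Mathlib.Analysis.SpecialFunctions.Pow.Deriv
import Mathlib.Analysis.SpecialFunctions.Integrals.Basic
import Mathlib.MeasureTheory.Integral.IntegralEqImproper

/-!
# Landau's lemma for `∫ f t t ^ (-s - 1)`

If `f ≥ 0` on `(A, ∞)`, the integral converges for `re s > v` and continues holomorphically to a
disc around a real `c > v`, then it converges at the real points of the disc left of `c`.
-/

set_option autoImplicit false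

noncomputable section

open MeasureTheory Set Filter Complex
open scoped Topology ComplexOrder

namespace FA.Nicolas

/-- `∫_A^∞ g t t ^ (-s - 1)`. -/
def trans (A : ℝ) (g : ℝ → ℝ) (s : ℂ) : ℂ :=
  ∫ t in Ioi A, (g t : ℂ) * (t : ℂ) ^ (-s - 1)

/-- `g t t ^ (-u - 1)` is integrable on `(A, ∞)`. -/
def Conv (A : ℝ) (g : ℝ → ℝ) (u : ℝ) : Prop :=
  IntegrableOn (fun t => g t * t ^ (-u - 1)) (Ioi A)

variable {A : ℝ} {g h : ℝ → ℝ} {u u' : ℝ}

theorem norm_kernel (hA : 0 ≤ A) {t : ℝ} (ht : t ∈ Ioi A) (g : ℝ → ℝ) (s : ℂ) :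
    ‖(g t : ℂ) * (t : ℂ) ^ (-s - 1)‖ = |g t| * t ^ (-s.re - 1) := by
  rw [norm_mul, norm_real, Real.norm_eq_abs, norm_cpow_eq_rpow_re_of_pos (hA.trans_lt ht)]
  simp

theorem aestronglyMeasurable_kernel (hA : 0 ≤ A) (hg : Measurable g) (s : ℂ) :
    AEStronglyMeasurable (fun t : ℝ => (g t : ℂ) * (t : ℂ) ^ (-s - 1))
      (volume.restrict (Ioi A)) := by
  refine (measurable_ofReal.comp hg).aestronglyMeasurable.mul
    ((ContinuousOn.aestronglyMeasurable (fun t ht => ?_) measurableSet_Ioi))
  exact (continuousAt_ofReal_cpow_const t _ (Or.inr (hA.trans_lt ht).ne')).continuousWithinAt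

theorem conv_mono (hA : 1 ≤ A) (hg : Measurable g) (h : Conv A g u) (hu : u ≤ u') :
    Conv A g u' := by
  refine Integrable.mono h
    (hg.mul (measurable_id.pow_const _)).aestronglyMeasurable ?_
  refine (ae_restrict_mem measurableSet_Ioi).mono fun t ht => ?_
  have ht1 : 1 < t := hA.trans_lt ht
  rw [norm_mul, norm_mul, Real.norm_of_nonneg (Real.rpow_nonneg (by linarith) _),
    Real.norm_of_nonneg (Real.rpow_nonneg (by linarith) _)]
  exact mul_le_mul_of_nonneg_left (Real.rpow_le_rpow_of_exponent_le ht1.le (by linarith))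
    (norm_nonneg _)

theorem conv_log (hA : 1 ≤ A) (hg : Measurable g) (h : Conv A g u) (hu : u < u') :
    Conv A (fun t => -Real.log t * g t) u' := by
  refine Integrable.mono (h.norm.const_mul (1 / (u' - u)))
    ((Real.measurable_log.neg.mul hg).mul
      (measurable_id.pow_const _)).aestronglyMeasurable ?_
  refine (ae_restrict_mem measurableSet_Ioi).mono fun t ht => ?_
  have ht1 : 1 < t := hA.trans_lt ht
  have hd : 0 < u' - u := sub_pos.2 hu
  rw [norm_mul, norm_mul, norm_neg, Real.norm_of_nonneg (Real.log_nonneg ht1.le),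
    Real.norm_of_nonneg (Real.rpow_nonneg (by linarith) _), Real.norm_eq_abs (_ * ‖_‖),
    abs_of_nonneg (by positivity), norm_mul,
    Real.norm_of_nonneg (Real.rpow_nonneg (by linarith : (0 : ℝ) ≤ t) (-u - 1))]
  calc Real.log t * ‖g t‖ * t ^ (-u' - 1)
      ≤ t ^ (u' - u) / (u' - u) * ‖g t‖ * t ^ (-u' - 1) :=
        mul_le_mul_of_nonneg_right (mul_le_mul_of_nonneg_right
          (Real.log_le_rpow_div (by linarith) hd) (norm_nonneg _))
          (Real.rpow_nonneg (by linarith) _)
    _ = 1 / (u' - u) * (‖g t‖ * t ^ (-u - 1)) := by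
        rw [show -u - 1 = (u' - u) + (-u' - 1) by ring, Real.rpow_add (by linarith)]
        ring

theorem integrable_kernel (hA : 1 ≤ A) (hg : Measurable g) (h : Conv A g u) {s : ℂ}
    (hs : u ≤ s.re) :
    IntegrableOn (fun t : ℝ => (g t : ℂ) * (t : ℂ) ^ (-s - 1)) (Ioi A) := by
  refine Integrable.mono (conv_mono hA hg h hs) (aestronglyMeasurable_kernel (by linarith) hg s) ?_
  refine (ae_restrict_mem measurableSet_Ioi).mono fun t ht => ?_
  rw [norm_kernel (by linarith) ht, norm_mul, Real.norm_eq_abs,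
    Real.norm_of_nonneg (Real.rpow_nonneg (by linarith [mem_Ioi.1 ht]) _)]

theorem hasDerivAt_trans (hA : 1 ≤ A) (hg : Measurable g) (h : Conv A g u) {s : ℂ}
    (hs : u < s.re) :
    HasDerivAt (trans A g) (trans A (fun t => -Real.log t * g t) s) s := by
  obtain ⟨u', hu1, hu2⟩ := exists_between hs
  have hA0 : 0 ≤ A := by linarith
  have hm : Measurable fun t => -Real.log t * g t := Real.measurable_log.neg.mul hg
  have key := hasDerivAt_integral_of_dominated_loc_of_deriv_le (μ := volume.restrict (Ioi A))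
    (F := fun z (t : ℝ) => (g t : ℂ) * (t : ℂ) ^ (-z - 1))
    (F' := fun z (t : ℝ) => ((-Real.log t * g t : ℝ) : ℂ) * (t : ℂ) ^ (-z - 1))
    (bound := fun t => |-Real.log t * g t| * t ^ (-u' - 1))
    ((isOpen_lt continuous_const continuous_re).mem_nhds hu2)
    (Eventually.of_forall fun z => aestronglyMeasurable_kernel hA0 hg z)
    (integrable_kernel hA hg h hs.le) (aestronglyMeasurable_kernel hA0 hm s)
    ((ae_restrict_mem measurableSet_Ioi).mono fun t ht z hz => ?_)
    ((conv_log hA hg h hu1).norm.congr ((ae_restrict_mem measurableSet_Ioi).mono fun t ht => ?_))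
    ((ae_restrict_mem measurableSet_Ioi).mono fun t ht z _ => ?_)
  · exact key.2
  · have hz' : u' < z.re := hz
    rw [norm_kernel hA0 ht fun t => -Real.log t * g t]
    exact mul_le_mul_of_nonneg_left (Real.rpow_le_rpow_of_exponent_le
      (hA.trans ht.out.le) (by linarith)) (abs_nonneg _)
  · simp only [norm_mul, Real.norm_eq_abs, abs_mul,
      abs_of_nonneg (Real.rpow_nonneg (hA0.trans ht.out.le) _)]
  · have ht0 : 0 < t := hA0.trans_lt ht
    have hd : HasDerivAt (fun z : ℂ => (t : ℂ) ^ (-z - 1))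
        ((t : ℂ) ^ (-z - 1) * Complex.log t * -1) z :=
      (((hasDerivAt_id z).neg).sub_const 1).const_cpow (Or.inl (ofReal_ne_zero.2 ht0.ne'))
    refine (hd.const_mul (g t : ℂ)).congr_deriv ?_
    rw [← ofReal_log ht0.le]
    push_cast
    ring

theorem differentiableAt_trans (hA : 1 ≤ A) (hg : Measurable g) (h : Conv A g u) {s : ℂ}
    (hs : u < s.re) : DifferentiableAt ℂ (trans A g) s :=
  (hasDerivAt_trans hA hg h hs).differentiableAt

theorem measurable_log_pow (hg : Measurable g) (n : ℕ) :
    Measurable fun t => (-Real.log t) ^ n * g t :=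
  (Real.measurable_log.neg.pow_const n).mul hg

theorem conv_log_pow (hA : 1 ≤ A) (hg : Measurable g) (h : ∀ w, u < w → Conv A g w) :
    ∀ (n : ℕ) (w : ℝ), u < w → Conv A (fun t => (-Real.log t) ^ n * g t) w := by
  intro n
  induction n with
  | zero => simpa using h
  | succ n ih =>
    intro w hw
    obtain ⟨w', h1, h2⟩ := exists_between hw
    simpa only [pow_succ', mul_assoc] using
      conv_log hA (measurable_log_pow hg n) (ih w' h1) h2

theorem iteratedDeriv_trans (hA : 1 ≤ A) (hg : Measurable g)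
    (h : ∀ w, u < w → Conv A g w) (n : ℕ) :
    ∀ s : ℂ, u < s.re →
      iteratedDeriv n (trans A g) s = trans A (fun t => (-Real.log t) ^ n * g t) s := by
  induction n with
  | zero => simp
  | succ n ih =>
    intro s hs
    obtain ⟨w, h1, h2⟩ := exists_between hs
    rw [iteratedDeriv_succ, (EventuallyEq.deriv_eq (eventually_of_mem
      ((isOpen_lt continuous_const continuous_re).mem_nhds hs) ih)),
      (hasDerivAt_trans hA (measurable_log_pow hg n) (conv_log_pow hA hg h n w h1) h2).deriv]
    simp only [pow_succ', mul_assoc]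

theorem trans_ofReal (hA : 0 ≤ A) (g : ℝ → ℝ) (x : ℝ) :
    trans A g (x : ℂ) = ((∫ t in Ioi A, g t * t ^ (-x - 1) : ℝ) : ℂ) := by
  rw [trans, ← integral_complex_ofReal]
  refine setIntegral_congr_fun measurableSet_Ioi fun t ht => ?_
  rw [ofReal_mul, ofReal_cpow (hA.trans ht.out.le)]
  push_cast
  rfl

/-- Truncations converge everywhere. -/
theorem conv_cut (hA : 1 ≤ A) (hg : Measurable g) (h : Conv A g u) (Y w : ℝ) :
    Conv A ((Iic Y).indicator g) w := by
  refine Integrable.mono (h.norm.const_mul ((max Y 1) ^ max (u - w) 0))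
    ((hg.indicator measurableSet_Iic).mul
      (measurable_id.pow_const _)).aestronglyMeasurable ?_
  refine (ae_restrict_mem measurableSet_Ioi).mono fun t ht => ?_
  have ht1 : 1 < t := hA.trans_lt ht
  rw [norm_mul, norm_mul, Real.norm_of_nonneg (Real.rpow_nonneg (by linarith) _),
    Real.norm_of_nonneg (Real.rpow_nonneg (by positivity) _), norm_norm, norm_mul,
    Real.norm_of_nonneg (Real.rpow_nonneg (by linarith : (0 : ℝ) ≤ t) (-u - 1))]
  by_cases hY : t ∈ Iic Y
  · rw [indicator_of_mem hY]
    have e : t ^ (-w - 1) = t ^ (u - w) * t ^ (-u - 1) := by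
      rw [← Real.rpow_add (by linarith)]
      ring_nf
    rw [e, mul_left_comm]
    gcongr
    calc t ^ (u - w) ≤ t ^ max (u - w) 0 :=
          Real.rpow_le_rpow_of_exponent_le ht1.le (le_max_left _ _)
      _ ≤ max Y 1 ^ max (u - w) 0 :=
          Real.rpow_le_rpow (by linarith) (le_max_of_le_left hY) (le_max_right _ _)
  · rw [indicator_of_notMem hY, norm_zero, zero_mul]
    positivity

/-- **Landau's lemma.** -/
theorem conv_of_continuation (hA : 1 ≤ A) (hg : Measurable g) (hpos : ∀ t ∈ Ioi A, 0 ≤ g t)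
    {v c r : ℝ} (hc : v < c) (hr : 0 < r) (hconv : ∀ w, v < w → Conv A g w) {F : ℂ → ℂ}
    (hF : DifferentiableOn ℂ F (Metric.ball (c : ℂ) r))
    (heq : EqOn F (trans A g) (Metric.ball (c : ℂ) r ∩ {s | v < s.re}))
    {x : ℝ} (hx : x ≤ c) (hxr : c - r < x) : Conv A g x := by
  have hA0 : 0 ≤ A := by linarith
  have hbound : ∀ Y, A ≤ Y → (∫ t in A..Y, ‖g t * t ^ (-x - 1)‖) ≤ (F x).re := by
    intro Y hY
    set gY : ℝ → ℝ := (Iic Y).indicator g
    set g1 : ℝ → ℝ := (Ioi Y).indicator g
    have hgY : Measurable gY := hg.indicator measurableSet_Iic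
    have hg1 : Measurable g1 := hg.indicator measurableSet_Ioi
    have hcut : ∀ w, Conv A gY w := fun w =>
      conv_cut hA hg (hconv (v + 1) (lt_add_one v)) Y w
    have hsum : ∀ t, g t = gY t + g1 t := fun t => by
      simp only [gY, g1, indicator_apply, mem_Iic, mem_Ioi]
      by_cases h : t ≤ Y
      · rw [if_pos h, if_neg (not_lt.2 h), add_zero]
      · rw [if_neg h, if_pos (not_le.1 h), zero_add]
    have hconv1 : ∀ w, v < w → Conv A g1 w := fun w hw => by
      refine ((hconv w hw).sub (hcut w)).congr (Eventually.of_forall fun t => ?_)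
      simp only [Pi.sub_apply, hsum t]
      ring
    have hdiff : DifferentiableOn ℂ (fun s => F s - trans A gY s) (Metric.ball (c : ℂ) r) :=
      hF.sub fun s _ => (differentiableAt_trans hA hgY (hcut (s.re - 1))
        (by linarith)).differentiableWithinAt
    have hS : IsOpen (Metric.ball (c : ℂ) r ∩ {s | v < s.re}) :=
      Metric.isOpen_ball.inter (isOpen_lt continuous_const continuous_re)
    have hcS : (c : ℂ) ∈ Metric.ball (c : ℂ) r ∩ {s | v < s.re} :=
      ⟨Metric.mem_ball_self hr, by simpa using hc⟩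
    have hEq : EqOn (fun s => F s - trans A gY s) (trans A g1)
        (Metric.ball (c : ℂ) r ∩ {s | v < s.re}) := fun s hs => by
      obtain ⟨w, h1, h2⟩ := exists_between (show v < s.re from hs.2)
      simp only [heq hs, trans]
      rw [← integral_sub (integrable_kernel hA hg (hconv w h1) h2.le)
        (integrable_kernel hA hgY (hcut w) h2.le)]
      refine setIntegral_congr_fun measurableSet_Ioi fun t _ => ?_
      simp only [hsum t, ofReal_add]
      ring
    set D : ℂ → ℂ := fun w => F (-w) - trans A gY (-w)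
    have hD : DifferentiableOn ℂ D (Metric.ball (-(c : ℂ)) r) := by
      refine hdiff.comp differentiable_neg.differentiableOn fun w hw => ?_
      simp only [Metric.mem_ball, dist_eq] at hw ⊢
      rwa [show -w - (c : ℂ) = -(w - -(c : ℂ)) by ring, norm_neg]
    have hd : ∀ n, 0 ≤ iteratedDeriv n D (-(c : ℂ)) := fun n => by
      rw [iteratedDeriv_comp_neg n (fun s => F s - trans A gY s) (-(c : ℂ)),
        neg_neg, smul_eq_mul, hEq.iteratedDeriv_of_isOpen hS n hcS,
        iteratedDeriv_trans hA hg1 hconv1 n _ (by simpa using hc), trans_ofReal hA0]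
      rw [show (-1 : ℂ) ^ n = (((-1 : ℝ) ^ n : ℝ) : ℂ) by push_cast; ring, ← ofReal_mul,
        zero_le_real, ← integral_const_mul]
      refine setIntegral_nonneg measurableSet_Ioi fun t ht => ?_
      have ht1 : 1 < t := hA.trans_lt ht
      rw [show ((-1 : ℝ) ^ n * ((-Real.log t) ^ n * g1 t * t ^ (-c - 1))) =
        ((-1 : ℝ) ^ n * (-Real.log t) ^ n) * g1 t * t ^ (-c - 1) by ring,
        ← mul_pow, neg_one_mul, neg_neg]
      refine mul_nonneg (mul_nonneg (pow_nonneg (Real.log_nonneg ht1.le) n) ?_)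
        (Real.rpow_nonneg (by linarith) _)
      simp only [g1, indicator_apply]
      split_ifs
      · exact hpos t ht
      · exact le_rfl
    have h := hD.nonneg_of_iteratedDeriv_nonneg hd (z := (-(x : ℂ)))
      (by simpa [Complex.le_def] using hx) ?_
    · simp only [D, neg_neg] at h
      have h2 := (Complex.le_def.1 h).1
      rw [sub_re, zero_re, trans_ofReal hA0, ofReal_re, sub_nonneg] at h2
      refine le_trans (le_of_eq ?_) h2
      rw [intervalIntegral.integral_of_le hY]
      rw [← integral_indicator measurableSet_Ioc, ← integral_indicator measurableSet_Ioi]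
      refine integral_congr_ae (Eventually.of_forall fun t => ?_)
      simp only [gY, indicator_apply, mem_Ioc, mem_Iic, mem_Ioi]
      by_cases h1 : A < t
      · by_cases h3 : t ≤ Y
        · rw [if_pos ⟨h1, h3⟩, if_pos h1, if_pos h3, Real.norm_of_nonneg
            (mul_nonneg (hpos t h1) (Real.rpow_nonneg (by linarith) _))]
        · rw [if_neg (fun h => h3 h.2), if_pos h1, if_neg h3, zero_mul]
      · rw [if_neg (fun h => h1 h.1), if_neg h1]
    · rw [Metric.mem_ball, dist_eq,
        show -(x : ℂ) - -(c : ℂ) = ((c - x : ℝ) : ℂ) by push_cast; ring, norm_real,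
        Real.norm_eq_abs, abs_of_nonneg (by linarith)]
      linarith
  refine integrableOn_Ioi_of_intervalIntegral_norm_bounded (F x).re A (b := fun Y : ℝ => Y)
    (l := atTop) (fun Y => ?_) tendsto_id ((eventually_ge_atTop A).mono fun Y hY => hbound Y hY)
  have h1 : Conv A ((Iic Y).indicator g) x := conv_cut hA hg (hconv (v + 1) (lt_add_one v)) Y x
  refine (IntegrableOn.congr_fun (h1.mono_set Ioc_subset_Ioi_self) (fun t ht => ?_)
    measurableSet_Ioc)
  simp [indicator_of_mem (show t ∈ Iic Y from ht.2)]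

end FA.Nicolas
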